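/-
Programme T1B (S44 / row 38), brick GEN-SEP (helper1), base level: the generic fibre of an
integrally closed chart.

`R` a domain with fraction field `K`, `F` a field over `K`, `B : Subalgebra R F` a chart containing
`t`, integrally closed in `F` and integral over `R[t]`.  The multiplication map
`mulMap B : K ⊗[R] ↥B →ₐ[K] F` is injective (for every subalgebra `B`) and its image is the
integral closure `Dict59.C0 t` of `K[t]` in `F`:

* `baseEquiv : K ⊗[R] ↥B ≃ₐ[K] ↥(C0 (K := K) t)`;
* `isDedekindDomain_base`, `not_isField_base` (`t` a transcendental generator, characteristic `0`).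
-/
import Mathlib
import Fermat.Agent.T1.Dict34.ChartDedekind
import Fermat.Agent.RED.PUR.ChartGeneric22

set_option autoImplicit false
set_option linter.unusedSectionVars false
set_option linter.style.haveILetI false

open TensorProduct Polynomial

namespace Fermat.Agent.T1B.DescSep1

open Fermat.Agent.T1.Dict59 Fermat.Agent.X0.FF
open Fermat.Agent.RED.PUR.ChartGeneric22 (isIntegral_subalgebra_iff)

variable {R K F : Type*} [CommRing R] [IsDomain R] [Field K] [Field F] [Algebra R K]
  [IsFractionRing R K] [Algebra K F] [Algebra R F] [IsScalarTower R K F]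

/-! ### Denominators -/

/-- Every element of `K ⊗[R] M` is of the form `r⁻¹ ⊗ m`. -/
theorem exists_inv_tmul {M : Type*} [AddCommGroup M] [Module R M] (z : K ⊗[R] M) :
    ∃ (r : R) (m : M), r ≠ 0 ∧ z = (algebraMap R K r)⁻¹ ⊗ₜ[R] m := by
  induction z using TensorProduct.induction_on with
  | zero => exact ⟨1, 0, one_ne_zero, by rw [tmul_zero]⟩
  | tmul k m =>
    obtain ⟨a, r, hr, rfl⟩ := IsFractionRing.div_surjective (A := R) k
    have hr0 : r ≠ 0 := nonZeroDivisors.ne_zero hr
    refine ⟨r, a • m, hr0, ?_⟩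
    rw [tmul_smul, smul_tmul', Algebra.smul_def, div_eq_mul_inv]
  | add z₁ z₂ h₁ h₂ =>
    obtain ⟨r₁, m₁, hr₁, rfl⟩ := h₁
    obtain ⟨r₂, m₂, hr₂, rfl⟩ := h₂
    have h1 : algebraMap R K r₁ ≠ 0 :=
      (map_ne_zero_iff _ (IsFractionRing.injective R K)).mpr hr₁
    have h2 : algebraMap R K r₂ ≠ 0 :=
      (map_ne_zero_iff _ (IsFractionRing.injective R K)).mpr hr₂
    refine ⟨r₁ * r₂, r₂ • m₁ + r₁ • m₂, mul_ne_zero hr₁ hr₂, ?_⟩
    rw [tmul_add, tmul_smul, tmul_smul, smul_tmul', smul_tmul', Algebra.smul_def,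
      Algebra.smul_def, map_mul]
    congr 2
    · field_simp
    · field_simp

variable (B : Subalgebra R F)

/-- The multiplication map `K ⊗[R] ↥B → F`. -/
noncomputable def mulMap : K ⊗[R] ↥B →ₐ[K] F :=
  Algebra.TensorProduct.lift (Algebra.ofId K F) B.val (fun _ _ => Commute.all _ _)

@[simp] theorem mulMap_tmul (k : K) (b : ↥B) :
    mulMap B (k ⊗ₜ[R] b) = algebraMap K F k * (b : F) := rfl

/-- The multiplication map is injective. -/
theorem mulMap_injective : Function.Injective (mulMap (K := K) B) := by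
  rw [injective_iff_map_eq_zero]
  intro z hz
  obtain ⟨r, b, hr, rfl⟩ := exists_inv_tmul z
  rw [mulMap_tmul] at hz
  have h1 : algebraMap K F (algebraMap R K r)⁻¹ ≠ 0 := by
    rw [map_ne_zero_iff _ (algebraMap K F).injective]
    exact inv_ne_zero ((map_ne_zero_iff _ (IsFractionRing.injective R K)).mpr hr)
  have hb : b = 0 := Subtype.ext ((mul_eq_zero.mp hz).resolve_left h1)
  rw [hb, tmul_zero]

/-- `K ⊗[R] ↥B` is a domain. -/
theorem isDomain_base : IsDomain (K ⊗[R] ↥B) :=
  (mulMap_injective (K := K) B).isDomain (mulMap (K := K) B).toRingHom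

/-! ### The image of the multiplication map -/

variable {B} {t : F}

/-- `R[t] ⊆ K[t]` inside `F`. -/
theorem mem_adjoin_K_of_mem_adjoin_R {y : F} (hy : y ∈ Algebra.adjoin R {t}) :
    y ∈ Algebra.adjoin K {t} := by
  induction hy using Algebra.adjoin_induction with
  | mem z hz => exact Algebra.subset_adjoin hz
  | algebraMap r =>
    rw [IsScalarTower.algebraMap_apply R K F]
    exact Subalgebra.algebraMap_mem _ _
  | add a b _ _ ha hb => exact add_mem ha hb
  | mul a b _ _ ha hb => exact mul_mem ha hb

/-- The values of the multiplication map are integral over `K[t]`. -/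
theorem isIntegral_mulMap (int : ∀ x ∈ B, IsIntegral (Algebra.adjoin R {t}) x)
    (z : K ⊗[R] ↥B) : IsIntegral (Algebra.adjoin K {t}) (mulMap B z) := by
  induction z using TensorProduct.induction_on with
  | zero => rw [map_zero]; exact isIntegral_zero
  | tmul k b =>
    rw [mulMap_tmul]
    refine IsIntegral.mul ?_ ?_
    · exact isIntegral_algebraMap (R := Algebra.adjoin K {t})
        (x := ⟨algebraMap K F k, Subalgebra.algebraMap_mem _ k⟩)
    · have hb := int _ b.2
      rw [isIntegral_subalgebra_iff] at hb ⊢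
      obtain ⟨P, hP, hcoeff, hPx⟩ := hb
      exact ⟨P, hP, fun i => mem_adjoin_K_of_mem_adjoin_R (hcoeff i), hPx⟩
  | add z₁ z₂ h₁ h₂ => rw [map_add]; exact h₁.add h₂

/-- Elements of `K[t]` have denominators into `B`. -/
theorem exists_mul_mem_of_mem_adjoin (htB : t ∈ B) {c : F} (hc : c ∈ Algebra.adjoin K {t}) :
    ∃ r : R, r ≠ 0 ∧ algebraMap R F r * c ∈ B := by
  induction hc using Algebra.adjoin_induction with
  | mem z hz =>
    rw [Set.mem_singleton_iff] at hz
    subst hz
    exact ⟨1, one_ne_zero, by rw [map_one, one_mul]; exact htB⟩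
  | algebraMap k =>
    obtain ⟨a, r, hr, rfl⟩ := IsFractionRing.div_surjective (A := R) k
    have hr0 : r ≠ 0 := nonZeroDivisors.ne_zero hr
    refine ⟨r, hr0, ?_⟩
    have hrK : algebraMap R K r ≠ 0 := (map_ne_zero_iff _ (IsFractionRing.injective R K)).mpr hr0
    have : algebraMap R F r * algebraMap K F (algebraMap R K a / algebraMap R K r) =
        algebraMap R F a := by
      rw [IsScalarTower.algebraMap_apply R K F r, ← map_mul, mul_div_cancel₀ _ hrK,
        ← IsScalarTower.algebraMap_apply]
    rw [this]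
    exact B.algebraMap_mem a
  | add a b _ _ ha hb =>
    obtain ⟨ra, hra, ha⟩ := ha
    obtain ⟨rb, hrb, hb⟩ := hb
    refine ⟨ra * rb, mul_ne_zero hra hrb, ?_⟩
    have : algebraMap R F (ra * rb) * (a + b) =
        algebraMap R F rb * (algebraMap R F ra * a) + algebraMap R F ra * (algebraMap R F rb * b) := by
      rw [map_mul]; ring
    rw [this]
    exact add_mem (mul_mem (B.algebraMap_mem _) ha) (mul_mem (B.algebraMap_mem _) hb)
  | mul a b _ _ ha hb =>
    obtain ⟨ra, hra, ha⟩ := ha
    obtain ⟨rb, hrb, hb⟩ := hb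
    refine ⟨ra * rb, mul_ne_zero hra hrb, ?_⟩
    have : algebraMap R F (ra * rb) * (a * b) =
        (algebraMap R F ra * a) * (algebraMap R F rb * b) := by
      rw [map_mul]; ring
    rw [this]
    exact mul_mem ha hb

/-- Common denominators for finitely many elements of `K[t]`. -/
theorem exists_common_mul_mem (htB : t ∈ B) (c : ℕ → F)
    (hc : ∀ i, c i ∈ Algebra.adjoin K {t}) (s : Finset ℕ) :
    ∃ r : R, r ≠ 0 ∧ ∀ i ∈ s, algebraMap R F r * c i ∈ B := by
  classical
  induction s using Finset.induction_on with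
  | empty => exact ⟨1, one_ne_zero, fun i hi => absurd hi (Finset.notMem_empty i)⟩
  | insert j s _ ih =>
    obtain ⟨r, hr, hrs⟩ := ih
    obtain ⟨r', hr', hj⟩ := exists_mul_mem_of_mem_adjoin (K := K) htB (hc j)
    refine ⟨r * r', mul_ne_zero hr hr', fun i hi => ?_⟩
    rcases Finset.mem_insert.mp hi with rfl | hi
    · have : algebraMap R F (r * r') * c i = algebraMap R F r * (algebraMap R F r' * c i) := by
        rw [map_mul]; ring
      rw [this]
      exact mul_mem (B.algebraMap_mem _) hj
    · have : algebraMap R F (r * r') * c i = algebraMap R F r' * (algebraMap R F r * c i) := by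
        rw [map_mul]; ring
      rw [this]
      exact mul_mem (B.algebraMap_mem _) (hrs i hi)

/-- **Every element of `F` integral over `K[t]` is a value of the multiplication map**, when `B`
contains `t` and is integrally closed in `F`. -/
theorem mem_range_mulMap_of_isIntegral (htB : t ∈ B)
    (intcl : ∀ x : F, IsIntegral B x → x ∈ B) {x : F}
    (hx : IsIntegral (Algebra.adjoin K {t}) x) : ∃ z : K ⊗[R] ↥B, mulMap B z = x := by
  rw [isIntegral_subalgebra_iff] at hx
  obtain ⟨P, hP, hcoeff, hPx⟩ := hx
  obtain ⟨r, hr, hrB⟩ := exists_common_mul_mem (K := K) htB P.coeff hcoeff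
    (Finset.range P.natDegree)
  have hy : IsIntegral B (algebraMap R F r * x) := by
    rw [isIntegral_subalgebra_iff]
    refine ⟨scaleRoots P (algebraMap R F r), (monic_scaleRoots_iff _).mpr hP, fun i => ?_, ?_⟩
    · rw [coeff_scaleRoots]
      rcases lt_trichotomy i P.natDegree with hi | hi | hi
      · have h1 : P.natDegree - i = (P.natDegree - i - 1) + 1 := by omega
        have h2 : P.coeff i * algebraMap R F r ^ (P.natDegree - i) =
            (algebraMap R F r * P.coeff i) * algebraMap R F r ^ (P.natDegree - i - 1) := by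
          rw [h1, pow_succ]; simp only [Nat.add_sub_cancel]; ring
        rw [h2]
        exact mul_mem (hrB i (Finset.mem_range.mpr hi)) (pow_mem (B.algebraMap_mem r) _)
      · rw [hi, Nat.sub_self, pow_zero, mul_one, hP.coeff_natDegree]
        exact one_mem B
      · rw [coeff_eq_zero_of_natDegree_lt hi, zero_mul]
        exact zero_mem B
    · rw [scaleRoots_eval_mul, hPx, mul_zero]
  have hyB := intcl _ hy
  have hrK : algebraMap R K r ≠ 0 := (map_ne_zero_iff _ (IsFractionRing.injective R K)).mpr hr
  refine ⟨(algebraMap R K r)⁻¹ ⊗ₜ[R] ⟨_, hyB⟩, ?_⟩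
  rw [mulMap_tmul]
  show algebraMap K F (algebraMap R K r)⁻¹ * (algebraMap R F r * x) = x
  rw [IsScalarTower.algebraMap_apply R K F r, ← mul_assoc, ← map_mul, inv_mul_cancel₀ hrK, map_one,
    one_mul]

/-! ### The identification with the field-level chart -/

/-- The multiplication map, corestricted to the integral closure of `K[t]` in `F`. -/
noncomputable def mulMapC0 (int : ∀ x ∈ B, IsIntegral (Algebra.adjoin R {t}) x) :
    K ⊗[R] ↥B →ₐ[K] ↥(C0 (K := K) t) :=
  AlgHom.codRestrict (mulMap B) (C0 (K := K) t) (fun z => isIntegral_mulMap int z)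

/-- **`K ⊗[R] ↥B ≃ₐ[K]` the integral closure of `K[t]` in `F`.** -/
noncomputable def baseEquiv (htB : t ∈ B) (intcl : ∀ x : F, IsIntegral B x → x ∈ B)
    (int : ∀ x ∈ B, IsIntegral (Algebra.adjoin R {t}) x) :
    K ⊗[R] ↥B ≃ₐ[K] ↥(C0 (K := K) t) :=
  AlgEquiv.ofBijective (mulMapC0 int) (by
    constructor
    · intro z z' h
      exact mulMap_injective B (congrArg (fun y : ↥(C0 (K := K) t) => (y : F)) h)
    · rintro ⟨x, hx⟩
      obtain ⟨z, hz⟩ := mem_range_mulMap_of_isIntegral (K := K) htB intcl ((mem_C0_iff t x).1 hx)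
      exact ⟨z, Subtype.ext hz⟩)

theorem coe_baseEquiv (htB : t ∈ B) (intcl : ∀ x : F, IsIntegral B x → x ∈ B)
    (int : ∀ x ∈ B, IsIntegral (Algebra.adjoin R {t}) x) (z : K ⊗[R] ↥B) :
    ((baseEquiv htB intcl int z : ↥(C0 (K := K) t)) : F) = mulMap B z := rfl

/-- The integral closure of `K[t]` in `F` is not a field when `t` is transcendental. -/
theorem not_isField_C0 (ht : Transcendental K t) : ¬ IsField ↥(C0 (K := K) t) := by
  intro hF
  -- `K[t]` would be a field
  have hint : Algebra.IsIntegral ↥(Algebra.adjoin K {t})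
      ↥(integralClosure ↥(Algebra.adjoin K {t}) F) := inferInstance
  have hinj : Function.Injective (algebraMap ↥(Algebra.adjoin K {t})
      ↥(integralClosure ↥(Algebra.adjoin K {t}) F)) := by
    intro a b hab
    apply Subtype.ext
    exact congrArg (fun y : ↥(integralClosure ↥(Algebra.adjoin K {t}) F) => (y : F)) hab
  have hF' : IsField ↥(integralClosure ↥(Algebra.adjoin K {t}) F) := hF
  have h1 : IsField ↥(Algebra.adjoin K {t}) := isField_of_isIntegral_of_isField hinj hF'
  have h2 : IsField K[X] :=
    (Polynomial.algEquivOfTranscendental K t ht).toRingEquiv.toMulEquiv.isField h1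
  exact Polynomial.not_isField K h2

variable [CharZero K]

/-- **Base level: the generic fibre of an integrally closed chart is a Dedekind domain.** -/
theorem isDedekindDomain_base (ht : IsGen K t) (htB : t ∈ B)
    (intcl : ∀ x : F, IsIntegral B x → x ∈ B)
    (int : ∀ x ∈ B, IsIntegral (Algebra.adjoin R {t}) x) : IsDedekindDomain (K ⊗[R] ↥B) :=
  haveI := Fermat.Agent.T1.Dict34.isDedekindDomain_C0 ht
  Fermat.Agent.T1.Dict34.isDedekindDomain_of_ringEquiv34
    (baseEquiv (K := K) htB intcl int).symm.toRingEquiv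

omit [CharZero K] in
/-- Base level: the generic fibre of a chart is not a field. -/
theorem not_isField_base (ht : Transcendental K t) (htB : t ∈ B)
    (intcl : ∀ x : F, IsIntegral B x → x ∈ B)
    (int : ∀ x ∈ B, IsIntegral (Algebra.adjoin R {t}) x) : ¬ IsField (K ⊗[R] ↥B) := fun h =>
  not_isField_C0 ht
    ((baseEquiv (K := K) htB intcl int).symm.toRingEquiv.toMulEquiv.isField h)

end Fermat.Agent.T1B.DescSep1
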