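/-
Programme T1B (S44 / row 38), brick Phi4 DESC', provider (G4) (helper1): THE `q`-EXPANSION OF THE
GENERIC FIBRE OF A HUB CHART and its leading coefficient.

`W` a domain with fraction field `K`, `K ⊂ L` fields, `F` a field over `K` with an injective
expansion `e : F →+* K((q))` which is the identity on constants, `B : Subalgebra W F` (e.g. the
overlap chart `B0 ⊔ B1` of a model inside `F = FK N K`).

* `expHub e he B : L ⊗[W] ↥B →+* L((q))`, `l ⊗ b ↦ C l * coeffMap (K → L) (e b)`; `expHub_injective`;
  `isDomain_hub : IsDomain (L ⊗[W] ↥B)`;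
* `expHub_gal` : coefficientwise equivariance for every `τ : L ≃ₐ[W] L`;
* `lcHub : L ⊗[W] ↥B →*₀ L` (leading coefficient), with `lcHub_ne_zero`, `lcHub_tmul_one`,
  `lcHub_gal` — exactly the hypotheses `lc`, `hlc0`, `hlcL`, `hlcG` of `Desc1.Final.descStatement`.
-/
import Mathlib
import Fermat.Agent.T1B.Hecke3.Omega.TensorInj
import Fermat.Agent.T1B.DescSep1.BaseLevel
import Fermat.Agent.T1B.Desc1.Iface
import Fermat.Agent.ES.P36.DescTools1

set_option autoImplicit false
set_option linter.unusedSectionVars false
set_option linter.style.haveILetI false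

open TensorProduct

namespace Fermat.Agent.T1B.DescSep1

open HahnSeries ModularCurve
open Fermat.Agent.T1B.Hecke3.Omega Fermat.Agent.T1B.Desc1 Fermat.Agent.ES.P36.DescTools1

universe u

variable {W L F : Type u} {K : Type*} [CommRing W] [IsDomain W] [Field K] [Algebra W K]
  [IsFractionRing W K] [Field L] [Algebra K L] [Algebra W L] [IsScalarTower W K L]
  [Field F] [Algebra K F] [Algebra W F] [IsScalarTower W K F]
  (e : F →+* LaurentSeries K) (he : ∀ c : K, e (algebraMap K F c) = HahnSeries.C c)
  (B : Subalgebra W F)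

/-- The expansion of `K ⊗[W] ↥B`. -/
noncomputable def expBase : K ⊗[W] ↥B →+* LaurentSeries K := e.comp (mulMap (K := K) B).toRingHom

include he in
theorem expBase_algebraMap (c : K) :
    expBase e B (algebraMap K (K ⊗[W] ↥B) c) = HahnSeries.C c := by
  show e (mulMap (K := K) B (algebraMap K (K ⊗[W] ↥B) c)) = _
  rw [AlgHom.commutes, he]

theorem expBase_injective (hinj : Function.Injective e) : Function.Injective (expBase e B) :=
  hinj.comp (mulMap_injective (K := K) B)

/-- **The `q`-expansion of the generic fibre `L ⊗[W] ↥B`.** -/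
noncomputable def expHub : L ⊗[W] ↥B →+* LaurentSeries L :=
  (tensorExp (L := L) (expBase e B) (expBase_algebraMap e he B)).comp
    ((Algebra.TensorProduct.cancelBaseChange W K K L ↥B).symm : L ⊗[W] ↥B →+* L ⊗[K] (K ⊗[W] ↥B))

@[simp] theorem expHub_tmul (l : L) (b : ↥B) :
    expHub e he B (l ⊗ₜ[W] b) = HahnSeries.C l * coeffMap (algebraMap K L) (e (b : F)) := by
  show tensorExp (L := L) (expBase e B) (expBase_algebraMap e he B)
    ((Algebra.TensorProduct.cancelBaseChange W K K L ↥B).symm (l ⊗ₜ[W] b)) = _
  rw [Algebra.TensorProduct.cancelBaseChange_symm_tmul, tensorExp_tmul]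
  show _ * coeffMap (algebraMap K L) (e (mulMap (K := K) B ((1 : K) ⊗ₜ[W] b))) = _
  rw [mulMap_tmul, map_one, one_mul]

theorem expHub_injective (hinj : Function.Injective e) :
    Function.Injective (expHub (L := L) e he B) :=
  (tensorExp_injective (L := L) (expBase e B) (expBase_algebraMap e he B)
    (expBase_injective e B hinj)).comp
    (Algebra.TensorProduct.cancelBaseChange W K K L ↥B).symm.injective

include e he in
/-- The generic fibre of a chart with an injective expansion is a domain. -/
theorem isDomain_hub (hinj : Function.Injective e) : IsDomain (L ⊗[W] ↥B) :=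
  (expHub_injective (L := L) e he B hinj).isDomain (expHub (L := L) e he B)

theorem expHub_tmul_one (l : L) :
    expHub e he B (l ⊗ₜ[W] (1 : ↥B)) = algebraMap L (LaurentSeries L) l := by
  rw [expHub_tmul]
  show HahnSeries.C l * coeffMap (algebraMap K L) (e (1 : F)) = _
  rw [map_one, map_one, mul_one, algebraMap_laurentSeries_eq_single]
  rfl

/-- A `W`-automorphism of `L` fixes `K = Frac W`. -/
theorem algEquiv_comp_algebraMap (τ : L ≃ₐ[W] L) :
    ((τ : L ≃ₐ[W] L) : L →+* L).comp (algebraMap K L) = algebraMap K L := by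
  apply IsLocalization.ringHom_ext (nonZeroDivisors W)
  refine RingHom.ext fun w => ?_
  show τ (algebraMap K L (algebraMap W K w)) = algebraMap K L (algebraMap W K w)
  rw [← IsScalarTower.algebraMap_apply W K L, τ.commutes]

/-- **Coefficientwise Galois equivariance of the expansion.** -/
theorem expHub_gal (τ : L ≃ₐ[W] L) (x : L ⊗[W] ↥B) :
    expHub e he B (galTensorHom τ ↥B x) =
      coeffMap ((τ : L ≃ₐ[W] L) : L →+* L) (expHub e he B x) := by
  induction x using TensorProduct.induction_on with
  | zero => rw [map_zero, map_zero, map_zero]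
  | tmul l b =>
    rw [galTensorHom_tmul, expHub_tmul, expHub_tmul, map_mul, coeffMap_coeffMap,
      algEquiv_comp_algebraMap (K := K) τ]
    congr 1
    exact (coeffMap_single ((τ : L ≃ₐ[W] L) : L →+* L) 0 l).symm
  | add x y hx hy => simp only [map_add, hx, hy]

/-! ### The leading coefficient -/

/-- **The normalisation**: the leading coefficient of the expansion. -/
noncomputable def lcHub : (L ⊗[W] ↥B) →*₀ L :=
  lcHom.comp (expHub (L := L) e he B).toMonoidWithZeroHom

theorem lcHub_ne_zero (hinj : Function.Injective e) (x : L ⊗[W] ↥B) (hx : x ≠ 0) :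
    lcHub (L := L) e he B x ≠ 0 :=
  lcHom_ne_zero ((map_ne_zero_iff _ (expHub_injective (L := L) e he B hinj)).mpr hx)

theorem lcHub_tmul_one (l : L) : lcHub e he B (l ⊗ₜ[W] (1 : ↥B)) = l := by
  show lcHom (expHub e he B (l ⊗ₜ[W] (1 : ↥B))) = l
  rw [expHub_tmul_one, lcHom_algebraMap]

theorem lcHub_gal (τ : L ≃ₐ[W] L) (x : L ⊗[W] ↥B) :
    lcHub e he B (galTensorHom τ ↥B x) = τ (lcHub e he B x) := by
  show lcHom (expHub e he B (galTensorHom τ ↥B x)) = τ (lcHom (expHub e he B x))
  rw [expHub_gal, lcHom_coeffMap]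
  rfl

end Fermat.Agent.T1B.DescSep1
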