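/-
Programme T1B (S44 / row 38), brick GEN-SEP (helper1): separable base change of an integrally
closed domain -- the abstract trace-dual-basis step.

`A` an integrally closed domain with fraction field `F`, `E ⊇ F` a finite field extension with an
`F`-basis `b` and a "trace dual" family `b'` of elements integral over `A`
(`Tr_{E/F}(b i * b' j) = δ_ij`): every element of `E` integral over `A` lies in the `A`-span of `b`.
-/
import Mathlib

set_option autoImplicit false
set_option linter.unusedSectionVars false
set_option linter.style.haveILetI false

namespace Fermat.Agent.T1B.DescSep1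

/-- Elements of `E` integral over `A` have coordinates in `A` with respect to a basis admitting an
integral trace-dual family. -/
theorem repr_mem_of_isIntegral {A F E ι : Type*} [CommRing A] [IsDomain A] [IsIntegrallyClosed A]
    [Field F] [Algebra A F] [IsFractionRing A F] [Field E] [Algebra F E] [Algebra A E]
    [IsScalarTower A F E] [FiniteDimensional F E] [Fintype ι] [DecidableEq ι]
    (b : Module.Basis ι F E) (b' : ι → E) (hb' : ∀ i, IsIntegral A (b' i))
    (hdual : ∀ i j, Algebra.trace F E (b i * b' j) = if i = j then 1 else 0)
    (x : E) (hx : IsIntegral A x) (j : ι) : ∃ a : A, algebraMap A F a = b.repr x j := by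
  have hrepr : Algebra.trace F E (x * b' j) = b.repr x j := by
    conv_lhs => rw [← b.sum_repr x]
    rw [Finset.sum_mul, map_sum]
    have : ∀ i ∈ Finset.univ, Algebra.trace F E (b.repr x i • b i * b' j) =
        if i = j then b.repr x j else 0 := by
      intro i _
      rw [smul_mul_assoc, map_smul, hdual i j, smul_eq_mul]
      split_ifs with h
      · rw [h, mul_one]
      · rw [mul_zero]
    rw [Finset.sum_congr rfl this, Finset.sum_ite_eq' Finset.univ j]
    simp
  have hint : IsIntegral A (Algebra.trace F E (x * b' j)) :=
    Algebra.isIntegral_trace (hx.mul (hb' j))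
  rw [hrepr] at hint
  exact IsIntegrallyClosed.isIntegral_iff.mp hint

/-- **The abstract step.**  `T` a domain integral over the integrally closed domain `A`, with
fraction field `E`, such that `E` has an `F = Frac A`-basis coming from `T` which admits a trace-dual
family coming from `T`: then `T` is integrally closed. -/
theorem isIntegrallyClosed_of_dual {A F T E ι : Type*} [CommRing A] [IsDomain A]
    [IsIntegrallyClosed A] [Field F] [Algebra A F] [IsFractionRing A F] [CommRing T] [IsDomain T]
    [Algebra A T] [Algebra.IsIntegral A T] [Field E] [Algebra F E] [Algebra A E] [Algebra T E]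
    [IsScalarTower A F E] [IsScalarTower A T E] [IsFractionRing T E] [FiniteDimensional F E]
    [Fintype ι] [DecidableEq ι]
    (b : Module.Basis ι F E) (t t' : ι → T) (hb : ∀ i, b i = algebraMap T E (t i))
    (hdual : ∀ i j, Algebra.trace F E (b i * algebraMap T E (t' j)) = if i = j then 1 else 0) :
    IsIntegrallyClosed T := by
  rw [isIntegrallyClosed_iff E]
  intro x hx
  have hxA : IsIntegral A x := isIntegral_trans x hx
  have hb' : ∀ i, IsIntegral A (algebraMap T E (t' i)) := fun i =>
    (Algebra.IsIntegral.isIntegral (R := A) (t' i)).map (IsScalarTower.toAlgHom A T E)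
  choose a ha using fun j => repr_mem_of_isIntegral b (fun j => algebraMap T E (t' j)) hb' hdual
    x hxA j
  refine ⟨∑ i, a i • t i, ?_⟩
  rw [map_sum]
  conv_rhs => rw [← b.sum_repr x]
  refine Finset.sum_congr rfl fun i _ => ?_
  rw [← ha i, hb i, algebraMap_smul, Algebra.smul_def, map_mul, ← IsScalarTower.algebraMap_apply,
    Algebra.smul_def]

end Fermat.Agent.T1B.DescSep1
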