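/-
Programme T1B (S44 / row 38), brick GEN-SEP (helper1): separable base change of an integrally
closed domain.

`K` a field, `L / K` a finite separable field extension, `B` a `K`-algebra which is an integrally
closed domain: if `B ⊗[K] L` is a domain, it is integrally closed.
-/
import Mathlib
import Fermat.Agent.T1B.DescSep1.Abstract

set_option autoImplicit false
set_option linter.unusedSectionVars false
set_option linter.style.haveILetI false

open TensorProduct

namespace Fermat.Agent.T1B.DescSep1

variable (K : Type*) [Field K] (L : Type*) [Field L] [Algebra K L] [FiniteDimensional K L]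
  [Algebra.IsSeparable K L]
  (B : Type*) [CommRing B] [Algebra K B]

/-- Trace of `1 ⊗ l` in a base change. -/
theorem trace_one_tmul (F : Type*) [CommRing F] [Algebra K F] (l : L) :
    Algebra.trace F (F ⊗[K] L) ((1 : F) ⊗ₜ[K] l) = algebraMap K F (Algebra.trace K L l) := by
  have h : Algebra.lmul F (F ⊗[K] L) ((1 : F) ⊗ₜ[K] l) =
      (Algebra.lmul K L l).baseChange F := by
    apply TensorProduct.AlgebraTensorModule.ext
    intro a m
    simp [Algebra.TensorProduct.tmul_mul_tmul]
  rw [Algebra.trace_apply, h, LinearMap.trace_baseChange, Algebra.trace_apply]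

variable [IsDomain B] [IsIntegrallyClosed B]

/-- **Separable base change of an integrally closed domain.** -/
theorem isIntegrallyClosed_tensor [IsDomain (B ⊗[K] L)] : IsIntegrallyClosed (B ⊗[K] L) := by
  classical
  -- the comparison map `T = B ⊗ L → E = Frac B ⊗ L`
  let ι : (B ⊗[K] L) →ₐ[B] (FractionRing B ⊗[K] L) :=
    Algebra.TensorProduct.map (Algebra.ofId B (FractionRing B)) (AlgHom.id K L)
  letI algTE : Algebra (B ⊗[K] L) (FractionRing B ⊗[K] L) := ι.toRingHom.toAlgebra
  have hιdef : ∀ x, algebraMap (B ⊗[K] L) (FractionRing B ⊗[K] L) x = ι x := fun _ => rfl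
  haveI towBTE : IsScalarTower B (B ⊗[K] L) (FractionRing B ⊗[K] L) :=
    IsScalarTower.of_algebraMap_eq fun b => (ι.commutes b).symm
  -- `E` is the localisation of `T` at the nonzero elements of `B`
  haveI hloc : IsLocalization
      (Algebra.algebraMapSubmonoid (B ⊗[K] L) (nonZeroDivisors B)) (FractionRing B ⊗[K] L) :=
    IsLocalization.tensorProduct_tensorProduct K L (nonZeroDivisors B) (FractionRing B)
      (RingHom.ext fun l => by
        show ι ((1 : B) ⊗ₜ[K] l) = (1 : FractionRing B) ⊗ₜ[K] l
        rw [Algebra.TensorProduct.map_tmul, map_one]; rfl)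
  have hBT : Function.Injective (algebraMap B (B ⊗[K] L)) :=
    Algebra.TensorProduct.includeLeft_injective (S := B) (FaithfulSMul.algebraMap_injective K L)
  have hM : Algebra.algebraMapSubmonoid (B ⊗[K] L) (nonZeroDivisors B) ≤
      nonZeroDivisors (B ⊗[K] L) := by
    rintro _ ⟨b, hb, rfl⟩
    exact mem_nonZeroDivisors_of_ne_zero
      ((map_ne_zero_iff _ hBT).mpr (nonZeroDivisors.ne_zero hb))
  haveI hdomE : IsDomain (FractionRing B ⊗[K] L) :=
    IsLocalization.isDomain_of_le_nonZeroDivisors (FractionRing B ⊗[K] L) hM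
  -- `E` is a field
  have hfield : IsField (FractionRing B ⊗[K] L) :=
    isField_of_isIntegral_of_isField' (R := FractionRing B) (Field.toIsField (FractionRing B))
  letI fieldE : Field (FractionRing B ⊗[K] L) := hfield.toField
  -- `E` is the fraction field of `T`
  have hinjTE : Function.Injective (algebraMap (B ⊗[K] L) (FractionRing B ⊗[K] L)) :=
    IsLocalization.injective _ hM
  haveI : FaithfulSMul (B ⊗[K] L) (FractionRing B ⊗[K] L) :=
    (faithfulSMul_iff_algebraMap_injective _ _).mpr hinjTE
  haveI hfrac : IsFractionRing (B ⊗[K] L) (FractionRing B ⊗[K] L) := by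
    refine IsFractionRing.of_field _ _ fun z => ?_
    obtain ⟨⟨x, s⟩, hxs⟩ := IsLocalization.surj
      (Algebra.algebraMapSubmonoid (B ⊗[K] L) (nonZeroDivisors B)) z
    refine ⟨x, s.1, ?_⟩
    have hs : algebraMap (B ⊗[K] L) (FractionRing B ⊗[K] L) s.1 ≠ 0 :=
      (map_ne_zero_iff _ hinjTE).mpr (nonZeroDivisors.ne_zero (hM s.2))
    rw [eq_div_iff hs]
    exact hxs
  -- bases
  let e := Module.finBasis K L
  let e' := (Algebra.traceForm K L).dualBasis (traceForm_nondegenerate K L) e
  let b : Module.Basis _ (FractionRing B) (FractionRing B ⊗[K] L) :=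
    Algebra.TensorProduct.basis (FractionRing B) e
  haveI : Algebra.IsIntegral B (B ⊗[K] L) := Algebra.IsIntegral.of_finite B (B ⊗[K] L)
  refine isIntegrallyClosed_of_dual (A := B) (F := FractionRing B) (E := FractionRing B ⊗[K] L)
    b (fun i => (1 : B) ⊗ₜ[K] e i) (fun i => (1 : B) ⊗ₜ[K] e' i) ?_ ?_
  · intro i
    rw [hιdef, Algebra.TensorProduct.map_tmul, map_one]
    exact Algebra.TensorProduct.basis_apply _ _
  · intro i j
    rw [hιdef, Algebra.TensorProduct.map_tmul, map_one]
    have hbi : b i = (1 : FractionRing B) ⊗ₜ[K] e i := Algebra.TensorProduct.basis_apply _ _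
    rw [hbi]
    show Algebra.trace (FractionRing B) (FractionRing B ⊗[K] L)
      ((1 : FractionRing B) ⊗ₜ[K] e i * (1 : FractionRing B) ⊗ₜ[K] e' j) = _
    rw [Algebra.TensorProduct.tmul_mul_tmul, mul_one, trace_one_tmul]
    have h := (Algebra.traceForm K L).apply_dualBasis_right (traceForm_nondegenerate K L)
      (Algebra.traceForm_isSymm K) e i j
    rw [Algebra.traceForm_apply] at h
    rw [h]
    split_ifs <;> simp

end Fermat.Agent.T1B.DescSep1

namespace Fermat.Agent.T1B.DescSep1

variable (K : Type*) [Field K] (L : Type*) [Field L] [Algebra K L] [FiniteDimensional K L]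
  [Algebra.IsSeparable K L]
  (B : Type*) [CommRing B] [Algebra K B]

/-- **Separable base change of a Dedekind domain** (`B ⊗ L` form). -/
theorem isDedekindDomain_tensor [IsDedekindDomain B] [IsDomain (B ⊗[K] L)] :
    IsDedekindDomain (B ⊗[K] L) := by
  haveI : IsIntegrallyClosed (B ⊗[K] L) := isIntegrallyClosed_tensor K L B
  haveI : IsNoetherianRing (B ⊗[K] L) := IsNoetherianRing.of_finite B (B ⊗[K] L)
  haveI : Algebra.IsIntegral B (B ⊗[K] L) := Algebra.IsIntegral.of_finite B (B ⊗[K] L)
  haveI : Ring.DimensionLEOne (B ⊗[K] L) := Ring.DimensionLEOne.of_isIntegral B (B ⊗[K] L)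
  exact { }

/-- Integrally closed domains are stable under ring isomorphisms (domain part). -/
theorem isDomain_of_ringEquiv {R S : Type*} [CommRing R] [CommRing S] (e : R ≃+* S) [IsDomain R] :
    IsDomain S := e.symm.toMulEquiv.isDomain R

/-- Dedekind domains are stable under ring isomorphisms. -/
theorem isDedekindDomain_of_ringEquiv {R S : Type*} [CommRing R] [CommRing S] (e : R ≃+* S)
    [IsDedekindDomain R] : IsDedekindDomain S := by
  haveI : IsDomain S := e.symm.toMulEquiv.isDomain R
  haveI : IsNoetherianRing S := isNoetherianRing_of_ringEquiv R e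
  haveI : Ring.DimensionLEOne S := Ring.DimensionLEOne.of_ringEquiv e.symm
  haveI : IsIntegrallyClosed S := IsIntegrallyClosed.of_equiv e
  exact { }

/-- **Separable base change of an integrally closed domain** (`L ⊗ B` form). -/
theorem isIntegrallyClosed_tensor' [IsDomain B] [IsIntegrallyClosed B] [IsDomain (L ⊗[K] B)] :
    IsIntegrallyClosed (L ⊗[K] B) := by
  haveI : IsDomain (B ⊗[K] L) :=
    isDomain_of_ringEquiv (Algebra.TensorProduct.comm K L B).toRingEquiv
  haveI := isIntegrallyClosed_tensor K L B
  exact IsIntegrallyClosed.of_equiv (Algebra.TensorProduct.comm K B L).toRingEquiv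

/-- **Separable base change of a Dedekind domain** (`L ⊗ B` form). -/
theorem isDedekindDomain_tensor' [IsDedekindDomain B] [IsDomain (L ⊗[K] B)] :
    IsDedekindDomain (L ⊗[K] B) := by
  haveI : IsDomain (B ⊗[K] L) :=
    isDomain_of_ringEquiv (Algebra.TensorProduct.comm K L B).toRingEquiv
  haveI := isDedekindDomain_tensor K L B
  exact isDedekindDomain_of_ringEquiv (Algebra.TensorProduct.comm K B L).toRingEquiv

/-- (A-fin) in the form consumed by `T1B/DescGen8` (implicit arguments, `L` on the left). -/
theorem isIntegrallyClosed_tensor_of_finite {K L B : Type*} [Field K] [Field L] [Algebra K L]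
    [FiniteDimensional K L] [Algebra.IsSeparable K L] [CommRing B] [Algebra K B] [IsDomain B]
    [IsIntegrallyClosed B] [IsDomain (L ⊗[K] B)] : IsIntegrallyClosed (L ⊗[K] B) :=
  isIntegrallyClosed_tensor' K L B

/-- (A-fin), Dedekind form (implicit arguments, `L` on the left). -/
theorem isDedekindDomain_tensor_of_finite {K L B : Type*} [Field K] [Field L] [Algebra K L]
    [FiniteDimensional K L] [Algebra.IsSeparable K L] [CommRing B] [Algebra K B]
    [IsDedekindDomain B] [IsDomain (L ⊗[K] B)] : IsDedekindDomain (L ⊗[K] B) :=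
  isDedekindDomain_tensor' K L B

end Fermat.Agent.T1B.DescSep1
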