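/-
Programme T1B (S44 / row 38), brick Phi4 DESC' (helper1): BASE CHANGE OF INTEGRALLY CLOSED DOMAINS
ALONG ARBITRARY (NOT NECESSARILY ALGEBRAIC) FIELD EXTENSIONS IN CHARACTERISTIC 0.

The local levels of the programme (`E ⊆ ℚ̄_p` finite over `ℚ_p`) are NOT algebraic over the number
field `K = Frac W`, so `DescSep1.Tensor` (finite separable) + `DescGen8.Union` (algebraic) do not
apply.  Here:

* `isIntegrallyClosed_ratFunc_tensor` : `RatFunc K ⊗[K] D` is integrally closed (localisation of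
  `D[X]`);
* `isIntegrallyClosed_adjoin_simple_tensor` : `K⟮x⟯ ⊗[K] D` integrally closed (`x` algebraic:
  `DescSep1.Tensor`; `x` transcendental: the previous item);
* `isIntegrallyClosed_tensor_fg` : induction on generators;
* **`isIntegrallyClosed_tensor_of_charZero`** (Theorem T): `k` of characteristic `0`, `L/k` ANY field
  extension, `C` an integrally closed domain over `k`, `L ⊗[k] C` a domain  ⟹  `L ⊗[k] C` is
  integrally closed.
-/
import Mathlib
import Fermat.Agent.T1B.DescSep1.Tensor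
import Fermat.Agent.T1B.DescGen8.Union

set_option autoImplicit false
set_option linter.unusedSectionVars false
set_option linter.style.haveILetI false

open TensorProduct Polynomial

namespace Fermat.Agent.T1B.DescSep1.Transc

open Fermat.Agent.T1B.DescGen8.Union

/-! ### The rational function field step -/

section RatFuncStep

variable (K : Type*) [Field K] (D : Type*) [CommRing D] [Algebra K D]

/-- `K[X] ⊗[K] D ≃ D[X]`. -/
noncomputable def polyTensorEquiv : (K[X] ⊗[K] D) ≃+* D[X] :=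
  ((Algebra.TensorProduct.comm K K[X] D).trans (polyEquivTensor K D).symm).toRingEquiv

variable [IsDomain D] [IsIntegrallyClosed D]

theorem isIntegrallyClosed_ratFunc_tensor : IsIntegrallyClosed (RatFunc K ⊗[K] D) := by
  haveI hdomT : IsDomain (K[X] ⊗[K] D) := isDomain_of_ringEquiv (polyTensorEquiv K D).symm
  haveI hicT : IsIntegrallyClosed (K[X] ⊗[K] D) :=
    IsIntegrallyClosed.of_equiv (polyTensorEquiv K D).symm
  haveI hloc : IsLocalization (Algebra.algebraMapSubmonoid (K[X] ⊗[K] D) (nonZeroDivisors K[X]))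
      ((K[X] ⊗[K] D) ⊗[K[X]] RatFunc K) := IsLocalization.tensor (RatFunc K) (nonZeroDivisors K[X])
  have hinj : Function.Injective (algebraMap K[X] (K[X] ⊗[K] D)) :=
    Algebra.TensorProduct.includeLeft_injective (S := K[X]) (algebraMap K D).injective
  have hle : Algebra.algebraMapSubmonoid (K[X] ⊗[K] D) (nonZeroDivisors K[X]) ≤
      nonZeroDivisors (K[X] ⊗[K] D) := by
    rintro _ ⟨p, hp, rfl⟩
    exact mem_nonZeroDivisors_of_ne_zero
      ((map_ne_zero_iff _ hinj).2 (nonZeroDivisors.ne_zero hp))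
  haveI : IsIntegrallyClosed ((K[X] ⊗[K] D) ⊗[K[X]] RatFunc K) :=
    isIntegrallyClosed_of_isLocalization _ _ hle
  let e : ((K[X] ⊗[K] D) ⊗[K[X]] RatFunc K) ≃+* (RatFunc K ⊗[K] D) :=
    ((Algebra.TensorProduct.comm K[X] (K[X] ⊗[K] D) (RatFunc K)).trans
      (Algebra.TensorProduct.cancelBaseChange K K[X] K[X] (RatFunc K) D)).toRingEquiv
  exact IsIntegrallyClosed.of_equiv (R := (K[X] ⊗[K] D) ⊗[K[X]] RatFunc K) e

end RatFuncStep

/-! ### The simple extension step -/

section SimpleStep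

variable {K L : Type*} [Field K] [CharZero K] [Field L] [Algebra K L]
  (D : Type*) [CommRing D] [Algebra K D] [IsDomain D] [IsIntegrallyClosed D]

open IntermediateField in
theorem isIntegrallyClosed_adjoin_simple_tensor (x : L) [IsDomain (↥K⟮x⟯ ⊗[K] D)] :
    IsIntegrallyClosed (↥K⟮x⟯ ⊗[K] D) := by
  by_cases hx : IsAlgebraic K x
  · haveI : FiniteDimensional K K⟮x⟯ := IntermediateField.adjoin.finiteDimensional hx.isIntegral
    haveI : Algebra.IsSeparable K ↥K⟮x⟯ := Algebra.IsAlgebraic.isSeparable_of_perfectField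
    exact isIntegrallyClosed_tensor_of_finite
  · have hx' : Transcendental K x := hx
    haveI := isIntegrallyClosed_ratFunc_tensor K D
    let e : (RatFunc K ⊗[K] D) ≃+* (↥K⟮x⟯ ⊗[K] D) :=
      (Algebra.TensorProduct.congr (RatFunc.algEquivOfTranscendental x hx')
        (AlgEquiv.refl (R := K) (A₁ := D))).toRingEquiv
    exact IsIntegrallyClosed.of_equiv (R := RatFunc K ⊗[K] D) e

end SimpleStep

/-! ### The simple extension step, abstract tower form -/

section AbstractStep

variable {k K E : Type*} [Field k] [Field K] [CharZero K] [Field E] [Algebra k K] [Algebra K E]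
  [Algebra k E] [IsScalarTower k K E] (C : Type*) [CommRing C] [Algebra k C]

open IntermediateField in
theorem isIntegrallyClosed_tensor_of_adjoin_simple_eq_top [IsDomain (K ⊗[k] C)]
    [IsIntegrallyClosed (K ⊗[k] C)] [IsDomain (E ⊗[k] C)] (x : E) (hx : K⟮x⟯ = ⊤) :
    IsIntegrallyClosed (E ⊗[k] C) := by
  let e₁ : ↥K⟮x⟯ ≃ₐ[K] E := (IntermediateField.equivOfEq hx).trans IntermediateField.topEquiv
  let e₂ : (↥K⟮x⟯ ⊗[K] (K ⊗[k] C)) ≃+* (E ⊗[k] C) :=
    ((Algebra.TensorProduct.congr e₁ (AlgEquiv.refl (R := K) (A₁ := K ⊗[k] C))).toRingEquiv).trans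
      (Algebra.TensorProduct.cancelBaseChange k K K E C).toRingEquiv
  haveI : IsDomain (↥K⟮x⟯ ⊗[K] (K ⊗[k] C)) :=
    isDomain_of_ringEquiv (R := E ⊗[k] C) (S := ↥K⟮x⟯ ⊗[K] (K ⊗[k] C)) e₂.symm
  haveI := isIntegrallyClosed_adjoin_simple_tensor (K := K) (L := E) (K ⊗[k] C) x
  exact IsIntegrallyClosed.of_equiv (R := ↥K⟮x⟯ ⊗[K] (K ⊗[k] C)) e₂

end AbstractStep

/-! ### Induction on generators and the directed union -/

section Main

variable {k L : Type*} [Field k] [CharZero k] [Field L] [Algebra k L]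
  (C : Type*) [CommRing C] [Algebra k C]

/-- The identity `↥(E.restrictScalars k) ≃ ↥E`. -/
noncomputable def rsEquiv (K₁ : IntermediateField k L) (E : IntermediateField ↥K₁ L) :
    ↥(E.restrictScalars k) ≃ₐ[k] ↥E where
  toFun a := ⟨a.1, a.2⟩
  invFun a := ⟨a.1, a.2⟩
  left_inv _ := rfl
  right_inv _ := rfl
  map_mul' _ _ := rfl
  map_add' _ _ := rfl
  commutes' _ := rfl

theorem adjoin_gen_eq_top (K₁ : IntermediateField k L) (x : L) :
    IntermediateField.adjoin ↥K₁
      {(IntermediateField.AdjoinSimple.gen ↥K₁ x : ↥(IntermediateField.adjoin ↥K₁ {x}))} = ⊤ := by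
  apply IntermediateField.lift_injective
  rw [IntermediateField.lift_adjoin_simple, IntermediateField.lift_top]
  rfl

variable [IsDomain C] [IsIntegrallyClosed C] [IsDomain (L ⊗[k] C)]

theorem isIntegrallyClosed_tensor_bot :
    IsIntegrallyClosed (↥(⊥ : IntermediateField k L) ⊗[k] C) := by
  let e : C ≃+* (↥(⊥ : IntermediateField k L) ⊗[k] C) :=
    ((Algebra.TensorProduct.lid k C).symm.trans
      (Algebra.TensorProduct.congr (IntermediateField.botEquiv k L).symm
        (AlgEquiv.refl (R := k) (A₁ := C)))).toRingEquiv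
  exact IsIntegrallyClosed.of_equiv (R := C) e

theorem isIntegrallyClosed_tensor_step (K₁ : IntermediateField k L) (x : L)
    (hK₁ : IsIntegrallyClosed (↥K₁ ⊗[k] C)) :
    IsIntegrallyClosed (↥((IntermediateField.adjoin ↥K₁ {x}).restrictScalars k) ⊗[k] C) := by
  haveI : IsDomain (↥K₁ ⊗[k] C) := isDomain_tensor_of_le K₁
  haveI := hK₁
  haveI : IsDomain (↥((IntermediateField.adjoin ↥K₁ {x}).restrictScalars k) ⊗[k] C) :=
    isDomain_tensor_of_le _
  let e : (↥((IntermediateField.adjoin ↥K₁ {x}).restrictScalars k) ⊗[k] C) ≃+*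
      (↥(IntermediateField.adjoin ↥K₁ {x}) ⊗[k] C) :=
    (Algebra.TensorProduct.congr (rsEquiv K₁ (IntermediateField.adjoin ↥K₁ {x}))
      (AlgEquiv.refl (R := k) (A₁ := C))).toRingEquiv
  haveI : IsDomain (↥(IntermediateField.adjoin ↥K₁ {x}) ⊗[k] C) :=
    isDomain_of_ringEquiv (R := ↥((IntermediateField.adjoin ↥K₁ {x}).restrictScalars k) ⊗[k] C)
      (S := ↥(IntermediateField.adjoin ↥K₁ {x}) ⊗[k] C) e
  haveI := isIntegrallyClosed_tensor_of_adjoin_simple_eq_top (k := k) (K := ↥K₁)
    (E := ↥(IntermediateField.adjoin ↥K₁ {x})) C _ (adjoin_gen_eq_top K₁ x)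
  exact IsIntegrallyClosed.of_equiv (R := ↥(IntermediateField.adjoin ↥K₁ {x}) ⊗[k] C) e.symm

theorem isIntegrallyClosed_tensor_fg (K₁ : IntermediateField k L) (h : K₁.FG) :
    IsIntegrallyClosed (↥K₁ ⊗[k] C) :=
  IntermediateField.induction_on_adjoin_fg (fun K₁ => IsIntegrallyClosed (↥K₁ ⊗[k] C))
    (isIntegrallyClosed_tensor_bot C) (fun K₁ x h => isIntegrallyClosed_tensor_step C K₁ x h) K₁ h

omit [CharZero k] [IsDomain C] [IsIntegrallyClosed C] [IsDomain (L ⊗[k] C)] in
/-- Every element of `L ⊗[k] C` comes from a finitely generated subextension. -/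
theorem exists_fg_mem_range (z : L ⊗[k] C) :
    ∃ K₁ : IntermediateField k L, K₁.FG ∧ z ∈ (tensorIncl (B := C) K₁).range := by
  induction z using TensorProduct.induction_on with
  | zero => exact ⟨⊥, IntermediateField.fg_bot, Subalgebra.zero_mem _⟩
  | tmul ω b =>
    refine ⟨IntermediateField.adjoin k {ω}, ?_, ?_⟩
    · exact IntermediateField.fg_adjoin_of_finite (Set.finite_singleton ω)
    · exact ⟨(⟨ω, IntermediateField.mem_adjoin_simple_self k ω⟩ :
        IntermediateField.adjoin k {ω}) ⊗ₜ[k] b, rfl⟩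
  | add x y hx hy =>
    obtain ⟨L1, hL1, h1⟩ := hx
    obtain ⟨L2, hL2, h2⟩ := hy
    exact ⟨L1 ⊔ L2, IntermediateField.fg_sup hL1 hL2,
      Subalgebra.add_mem _ (range_tensorIncl_mono le_sup_left h1)
        (range_tensorIncl_mono le_sup_right h2)⟩

/-- **Theorem T.**  In characteristic `0`, the base change of an integrally closed domain along an
ARBITRARY field extension is integrally closed as soon as it is a domain. -/
theorem isIntegrallyClosed_tensor_of_charZero : IsIntegrallyClosed (L ⊗[k] C) := by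
  let ι := {K₁ : IntermediateField k L // K₁.FG}
  haveI : Nonempty ι := ⟨⟨⊥, IntermediateField.fg_bot⟩⟩
  refine isIntegrallyClosed_of_directed_subrings
    (fun K₁ : ι => (tensorIncl (B := C) K₁.1).range.toSubring) ?_ ?_ ?_
  · rintro ⟨L1, hL1⟩ ⟨L2, hL2⟩
    exact ⟨⟨L1 ⊔ L2, IntermediateField.fg_sup hL1 hL2⟩,
      range_tensorIncl_mono le_sup_left, range_tensorIncl_mono le_sup_right⟩
  · intro z
    obtain ⟨K₁, hK₁, hz⟩ := exists_fg_mem_range C z
    exact ⟨⟨K₁, hK₁⟩, hz⟩
  · rintro ⟨K₁, hK₁⟩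
    haveI := isDomain_tensor_of_le (B := C) K₁
    haveI := isIntegrallyClosed_tensor_fg C K₁ hK₁
    let e : (↥K₁ ⊗[k] C) ≃+* (tensorIncl (B := C) K₁).range.toSubring :=
      (AlgEquiv.ofInjective (tensorIncl (B := C) K₁) (tensorIncl_injective K₁)).toRingEquiv
    exact IsIntegrallyClosed.of_equiv (R := ↥K₁ ⊗[k] C) e

end Main

end Fermat.Agent.T1B.DescSep1.Transc
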