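/-
Programme T1B (S44 / row 38), brick Phi4 DESC' (helper1): THE CHARTS OF THE GENERIC FIBRE OVER AN
ARBITRARY (NOT NECESSARILY ALGEBRAIC) FIELD EXTENSION, abstract part (Mathlib + `Transcendental` +
`DescGen8.Plumb`).

* `polyHom t : L[X] →ₐ[L] L ⊗[R] B`, `isIntegralElem_polyHom`, **`dimensionLEOne_tensor`** : if `B` is
  integral over `R[t]` then `L ⊗[R] B` (a domain) has dimension `≤ 1`;
* `isIntegralElem_aeval_of_isIntegral_adjoin` : the hypothesis `int0` of the hub
  (`IsIntegral (Algebra.adjoin R {t}) x` inside `F`) in the form needed above;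
* `not_isField_tensor` : `L ⊗[k] C` is not a field if `C` is not;
* **`isDedekindDomain_tensor_of_base`**, `not_isField_tensor_of_base` : `W → K → L`, `K` of
  characteristic `0`, `L/K` ANY field extension: `L ⊗[W] B` is Dedekind / not a field if `K ⊗[W] B`
  is, given that `L ⊗[W] B` is a domain and `B` is of finite type and integral over `W[t]`.
-/
import Mathlib
import Fermat.Agent.T1B.DescSep1.Transcendental
import Fermat.Agent.T1B.DescGen8.Plumb

set_option autoImplicit false
set_option linter.unusedSectionVars false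
set_option linter.style.haveILetI false

open TensorProduct Polynomial

namespace Fermat.Agent.T1B.DescSep1.Transc

open Fermat.Agent.T1B.DescGen8.Union Fermat.Agent.T1B.DescGen8.Plumb

/-! ### Dimension `≤ 1` of the base change of an algebra integral over `R[t]` -/

section Dim

variable {R L B : Type*} [CommRing R] [Field L] [Algebra R L] [CommRing B] [Algebra R B]

/-- `L[X] → L ⊗[R] B`, `X ↦ 1 ⊗ t`. -/
noncomputable def polyHom (t : B) : L[X] →ₐ[L] L ⊗[R] B := aeval ((1 : L) ⊗ₜ[R] t)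

theorem polyHom_comp_map (t : B) :
    ((polyHom (L := L) t : L[X] →ₐ[L] L ⊗[R] B) : L[X] →+* L ⊗[R] B).comp
        (mapRingHom (algebraMap R L)) =
      ((Algebra.TensorProduct.includeRight : B →ₐ[R] L ⊗[R] B) : B →+* L ⊗[R] B).comp
        ((aeval t : R[X] →ₐ[R] B) : R[X] →+* B) := by
  apply Polynomial.ringHom_ext
  · intro r
    simp only [RingHom.comp_apply, coe_mapRingHom, map_C, RingHom.coe_coe, polyHom, aeval_C,
      Algebra.TensorProduct.includeRight_apply, Algebra.TensorProduct.algebraMap_apply,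
      Algebra.algebraMap_self, RingHom.id_apply]
    rw [Algebra.algebraMap_eq_smul_one r, Algebra.algebraMap_eq_smul_one r, smul_tmul]
  · simp [polyHom]

theorem isIntegralElem_polyHom (t : B)
    (hint : ∀ b : B, ((aeval t : R[X] →ₐ[R] B) : R[X] →+* B).IsIntegralElem b) (z : L ⊗[R] B) :
    ((polyHom (L := L) t : L[X] →ₐ[L] L ⊗[R] B) : L[X] →+* L ⊗[R] B).IsIntegralElem z := by
  induction z using TensorProduct.induction_on with
  | zero => exact RingHom.isIntegralElem_zero _
  | tmul l b =>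
    have h1 : (l ⊗ₜ[R] b : L ⊗[R] B) =
        ((polyHom (L := L) t : L[X] →ₐ[L] L ⊗[R] B) : L[X] →+* L ⊗[R] B) (C l) *
          ((1 : L) ⊗ₜ[R] b) := by
      simp [polyHom, Algebra.TensorProduct.algebraMap_apply]
    rw [h1]
    refine RingHom.IsIntegralElem.mul _ (RingHom.isIntegralElem_map _) ?_
    obtain ⟨P, hPm, hPe⟩ := hint b
    apply RingHom.IsIntegralElem.of_comp (f := mapRingHom (algebraMap R L))
    rw [polyHom_comp_map]
    refine ⟨P, hPm, ?_⟩
    have := Polynomial.hom_eval₂ P ((aeval t : R[X] →ₐ[R] B) : R[X] →+* B)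
      ((Algebra.TensorProduct.includeRight : B →ₐ[R] L ⊗[R] B) : B →+* L ⊗[R] B) b
    rw [hPe, map_zero] at this
    exact this.symm
  | add x y hx hy => exact RingHom.IsIntegralElem.add _ hx hy

/-- **Dimension `≤ 1`.** -/
theorem dimensionLEOne_tensor (t : B)
    (hint : ∀ b : B, ((aeval t : R[X] →ₐ[R] B) : R[X] →+* B).IsIntegralElem b)
    [IsDomain (L ⊗[R] B)] : Ring.DimensionLEOne (L ⊗[R] B) := by
  letI : Algebra L[X] (L ⊗[R] B) :=
    ((polyHom (L := L) t : L[X] →ₐ[L] L ⊗[R] B) : L[X] →+* L ⊗[R] B).toAlgebra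
  haveI : Algebra.IsIntegral L[X] (L ⊗[R] B) := ⟨fun z => isIntegralElem_polyHom t hint z⟩
  exact Ring.DimensionLEOne.of_isIntegral L[X] (L ⊗[R] B)

end Dim

/-! ### From integrality over `R[t] ⊆ F` to integrality over `R[X]` -/

section Lift

variable {R F : Type*} [CommRing R] [CommRing F] [Algebra R F]

theorem isIntegralElem_aeval_of_isIntegral_adjoin (B : Subalgebra R F) {t : F} (ht : t ∈ B)
    {x : F} (hx : x ∈ B) (h : IsIntegral (Algebra.adjoin R {t}) x) :
    ((aeval (⟨t, ht⟩ : ↥B) : R[X] →ₐ[R] ↥B) : R[X] →+* ↥B).IsIntegralElem ⟨x, hx⟩ := by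
  obtain ⟨p, hpm, hpe⟩ := h
  let f : R[X] →ₐ[R] ↥(Algebra.adjoin R {t}) :=
    aeval (⟨t, Algebra.self_mem_adjoin_singleton R t⟩ : ↥(Algebra.adjoin R {t}))
  have hfval : ∀ q : R[X], ((f q : ↥(Algebra.adjoin R {t})) : F) = aeval t q := by
    intro q
    have := Polynomial.aeval_algHom_apply (Algebra.adjoin R {t}).val
      (⟨t, Algebra.self_mem_adjoin_singleton R t⟩ : ↥(Algebra.adjoin R {t})) q
    exact this.symm
  have hf : Function.Surjective f := by
    rintro ⟨y, hy⟩
    rw [Algebra.adjoin_singleton_eq_range_aeval] at hy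
    obtain ⟨q, rfl⟩ := hy
    exact ⟨q, Subtype.ext (hfval q)⟩
  obtain ⟨P, hP, -, hPm⟩ := Polynomial.lifts_and_natDegree_eq_and_monic
    (f := (f : R[X] →+* ↥(Algebra.adjoin R {t})))
    ((Polynomial.mem_lifts p).2 (Polynomial.map_surjective _ hf p)) hpm
  refine ⟨P, hPm, ?_⟩
  apply Subtype.val_injective
  have hgval : ∀ q : R[X], (((aeval (⟨t, ht⟩ : ↥B) : R[X] →ₐ[R] ↥B) q : ↥B) : F) = aeval t q := by
    intro q
    have := Polynomial.aeval_algHom_apply B.val (⟨t, ht⟩ : ↥B) q
    exact this.symm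
  have h1 := Polynomial.hom_eval₂ P ((aeval (⟨t, ht⟩ : ↥B) : R[X] →ₐ[R] ↥B) : R[X] →+* ↥B)
    (B.val : ↥B →+* F) ⟨x, hx⟩
  have h2 : ((B.val : ↥B →+* F).comp ((aeval (⟨t, ht⟩ : ↥B) : R[X] →ₐ[R] ↥B) : R[X] →+* ↥B)) =
      (algebraMap ↥(Algebra.adjoin R {t}) F).comp (f : R[X] →+* ↥(Algebra.adjoin R {t})) :=
    RingHom.ext fun q => by
      show (((aeval (⟨t, ht⟩ : ↥B) : R[X] →ₐ[R] ↥B) q : ↥B) : F) =
        ((f q : ↥(Algebra.adjoin R {t})) : F)
      rw [hgval, hfval]
  show (B.val : ↥B →+* F) _ = (B.val : ↥B →+* F) 0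
  rw [h1, map_zero, h2, ← Polynomial.eval₂_map, hP]
  exact hpe

end Lift

/-! ### Not a field -/

section NotField

variable {k L C : Type*} [Field k] [Field L] [Algebra k L] [CommRing C] [Algebra k C]

/-- The base change of a nontrivial ring which is not a field along a field extension is not a
field. -/
theorem not_isField_tensor [Nontrivial C] (h : ¬ IsField C) : ¬ IsField (L ⊗[k] C) := by
  intro hF
  obtain ⟨I, hI0, hI1⟩ := Ring.not_isField_iff_exists_ideal_bot_lt_and_lt_top.1 h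
  obtain ⟨c, hcI, hc0⟩ := Submodule.exists_mem_ne_zero_of_ne_bot hI0.ne'
  haveI : Nontrivial (C ⧸ I) := Ideal.Quotient.nontrivial_iff.2 hI1.ne
  have hinjC : Function.Injective (Algebra.TensorProduct.includeRight : C →ₐ[k] L ⊗[k] C) :=
    Algebra.TensorProduct.includeRight_injective (algebraMap k L).injective
  have hinjQ : Function.Injective
      (Algebra.TensorProduct.includeRight : (C ⧸ I) →ₐ[k] L ⊗[k] (C ⧸ I)) :=
    Algebra.TensorProduct.includeRight_injective (algebraMap k L).injective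
  haveI : Nontrivial (L ⊗[k] (C ⧸ I)) := hinjQ.nontrivial
  let ψ : L ⊗[k] C →ₐ[L] L ⊗[k] (C ⧸ I) :=
    Algebra.TensorProduct.map (AlgHom.id L L) (Ideal.Quotient.mkₐ k I)
  letI : Field (L ⊗[k] C) := hF.toField
  have hψ : Function.Injective ψ := (ψ : L ⊗[k] C →+* L ⊗[k] (C ⧸ I)).injective
  have h0 : ψ ((1 : L) ⊗ₜ[k] c) = 0 := by
    show Algebra.TensorProduct.map (AlgHom.id L L) (Ideal.Quotient.mkₐ k I) ((1 : L) ⊗ₜ[k] c) = 0
    rw [Algebra.TensorProduct.map_tmul, Ideal.Quotient.mkₐ_eq_mk,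
      Ideal.Quotient.eq_zero_iff_mem.2 hcI, tmul_zero]
  have h1 : (1 : L) ⊗ₜ[k] c = 0 := hψ (by rw [h0, map_zero])
  exact hc0 (hinjC (by rw [map_zero]; exact h1))

end NotField

/-! ### The chart of the generic fibre over an arbitrary field extension -/

section Chart

variable {W K L B : Type*} [CommRing W] [Field K] [CharZero K] [Field L] [Algebra W K]
  [Algebra K L] [Algebra W L] [IsScalarTower W K L] [CommRing B] [Algebra W B]

/-- **The generic fibre over an ARBITRARY field extension `L` of `K` (characteristic `0`) is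
Dedekind**, given the base level `K ⊗[W] B`, the domain property and integrality over `W[t]`. -/
theorem isDedekindDomain_tensor_of_base [Algebra.FiniteType W B]
    [IsDedekindDomain (K ⊗[W] B)] [IsDomain (L ⊗[W] B)] (t : B)
    (hint : ∀ b : B, ((aeval t : W[X] →ₐ[W] B) : W[X] →+* B).IsIntegralElem b) :
    IsDedekindDomain (L ⊗[W] B) := by
  haveI : Algebra.FiniteType L (L ⊗[W] B) := Algebra.FiniteType.baseChange L
  haveI hN : IsNoetherianRing (L ⊗[W] B) := Algebra.FiniteType.isNoetherianRing L (L ⊗[W] B)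
  haveI hdim : Ring.DimensionLEOne (L ⊗[W] B) := dimensionLEOne_tensor t hint
  haveI hic : IsIntegrallyClosed (L ⊗[W] B) := by
    haveI : IsDomain (L ⊗[K] (K ⊗[W] B)) :=
      (cancelEquiv (W := W) (K := K) (L := L) (B := B)).toMulEquiv.isDomain
    haveI : IsIntegrallyClosed (L ⊗[K] (K ⊗[W] B)) :=
      isIntegrallyClosed_tensor_of_charZero (K ⊗[W] B)
    exact IsIntegrallyClosed.of_equiv (R := L ⊗[K] (K ⊗[W] B))
      (cancelEquiv (W := W) (K := K) (L := L) (B := B))
  exact { }

/-- The generic fibre over `L` is not a field if the one over `K` is not. -/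
theorem not_isField_tensor_of_base [Nontrivial (K ⊗[W] B)] (h : ¬ IsField (K ⊗[W] B)) :
    ¬ IsField (L ⊗[W] B) := by
  intro hL
  exact not_isField_tensor (L := L) h
    ((cancelEquiv (W := W) (K := K) (L := L) (B := B)).toMulEquiv.isField hL)

end Chart

end Fermat.Agent.T1B.DescSep1.Transc
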