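/-
Programme T1B (S44 / row 38), brick Phi4 DESC' (helper1): THE GENERIC ASSEMBLY FOR A HUB OF
SUBALGEBRAS OF A FUNCTION FIELD, OVER ARBITRARY FIELDS `L ⊆ Ω` CONTAINING `K = Frac W`.

Same statements as `DescSep1/HubFinal.lean` (namespace `Fermat.Agent.T1B.DescSep1`), same argument
order, but WITHOUT `[Algebra.IsAlgebraic K L]` / `[Algebra.IsAlgebraic K Ω]`: the local levels of the
programme (`L = E` finite over `ℚ_p`, `Ω = ℚ̄_p`, `K` a number field) are not algebraic over `K`.
Uses Theorem T (`DescSep1/Transcendental.lean`) and `DescSep1/TranscChart.lean`.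

* `Gen.isDedekindDomain_chart0/1`, `Gen.not_isField_chart0/1`;
* **`Gen.descStatement_hub`** : `Desc1.DescStatement c0 L Ω G` from `H0Const (c0.baseChange L)` alone.
-/
import Mathlib
import Fermat.Agent.T1B.DescSep1.HubFinal
import Fermat.Agent.T1B.DescSep1.TranscChart

set_option autoImplicit false
set_option linter.unusedSectionVars false
set_option linter.style.haveILetI false

open TensorProduct

namespace Fermat.Agent.T1B.DescSep1.Gen

open HahnSeries ModularCurve
open Fermat.Agent.Jac Fermat.Agent.T1.Red68 Fermat.Agent.X0.FF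
open Fermat.Agent.T1B.Desc1 Fermat.Agent.T1B.DescGen8.Plumb
open Fermat.Agent.Jac.BaseChange75
open scoped Fermat.Agent.Jac.BaseChange75

universe u

variable {W F : Type u} {K : Type*} [CommRing W] [IsDomain W] [Field K] [CharZero K]
  [Algebra W K] [IsFractionRing W K] [Field F] [Algebra K F] [Algebra W F] [IsScalarTower W K F]
  (e : F →+* LaurentSeries K) (he : ∀ c : K, e (algebraMap K F c) = HahnSeries.C c)
  (hinj : Function.Injective e)
  (B0 B1 B01 : Subalgebra W F) [Algebra ↥B0 ↥B01] [Algebra ↥B1 ↥B01]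
  [IsScalarTower W ↥B0 ↥B01] [IsScalarTower W ↥B1 ↥B01]
  (h0 : ∀ x : ↥B0, ((algebraMap ↥B0 ↥B01 x : ↥B01) : F) = x)
  (h1 : ∀ x : ↥B1, ((algebraMap ↥B1 ↥B01 x : ↥B01) : F) = x)

section Charts

variable (L : Type u) [Field L] [Algebra K L] [Algebra W L] [IsScalarTower W K L]

variable {t : F} (ht : IsGen K t)

include e he hinj h0 ht in
/-- **Chart 0 of the generic fibre over an ARBITRARY field `L ⊇ K` is a Dedekind domain.** -/
theorem isDedekindDomain_chart0 [Algebra.FiniteType W ↥B0] (ht0 : t ∈ B0)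
    (intcl0 : ∀ x : F, IsIntegral B0 x → x ∈ B0)
    (int0 : ∀ x ∈ B0, IsIntegral (Algebra.adjoin W {t}) x) : IsDedekindDomain (L ⊗[W] ↥B0) := by
  haveI := isDedekindDomain_base (K := K) ht ht0 intcl0 int0
  haveI := isDomain_overlap (L := L) e he hinj B01
  haveI : IsDomain (L ⊗[W] ↥B0) := isDomain_chart (W := W) (L := L) (B := ↥B0) (B01 := ↥B01) K
    (algebraMap0_injective B0 B01 h0)
  exact Transc.isDedekindDomain_tensor_of_base (K := K) (L := L) (⟨t, ht0⟩ : ↥B0)
    (fun b => Transc.isIntegralElem_aeval_of_isIntegral_adjoin B0 ht0 b.2 (int0 b.1 b.2))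

include e he hinj h1 ht in
/-- **Chart 1 of the generic fibre over an ARBITRARY field `L ⊇ K` is a Dedekind domain.** -/
theorem isDedekindDomain_chart1 [Algebra.FiniteType W ↥B1] (ht1 : t⁻¹ ∈ B1)
    (intcl1 : ∀ x : F, IsIntegral B1 x → x ∈ B1)
    (int1 : ∀ x ∈ B1, IsIntegral (Algebra.adjoin W {t⁻¹}) x) : IsDedekindDomain (L ⊗[W] ↥B1) := by
  haveI := isDedekindDomain_base (K := K) ht.inv ht1 intcl1 int1
  haveI := isDomain_overlap (L := L) e he hinj B01
  haveI : IsDomain (L ⊗[W] ↥B1) := isDomain_chart (W := W) (L := L) (B := ↥B1) (B01 := ↥B01) K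
    (algebraMap1_injective B1 B01 h1)
  exact Transc.isDedekindDomain_tensor_of_base (K := K) (L := L) (⟨t⁻¹, ht1⟩ : ↥B1)
    (fun b => Transc.isIntegralElem_aeval_of_isIntegral_adjoin B1 ht1 b.2 (int1 b.1 b.2))

include ht in
/-- Chart 0 of the generic fibre over `L` is not a field. -/
theorem not_isField_chart0 (ht0 : t ∈ B0) (intcl0 : ∀ x : F, IsIntegral B0 x → x ∈ B0)
    (int0 : ∀ x ∈ B0, IsIntegral (Algebra.adjoin W {t}) x) : ¬ IsField (L ⊗[W] ↥B0) := by
  haveI : IsDomain (K ⊗[W] ↥B0) := isDomain_base (K := K) B0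
  exact Transc.not_isField_tensor_of_base (K := K) (L := L)
    (not_isField_base (K := K) ht.transcendental ht0 intcl0 int0)

include ht in
/-- Chart 1 of the generic fibre over `L` is not a field. -/
theorem not_isField_chart1 (ht1 : t⁻¹ ∈ B1) (intcl1 : ∀ x : F, IsIntegral B1 x → x ∈ B1)
    (int1 : ∀ x ∈ B1, IsIntegral (Algebra.adjoin W {t⁻¹}) x) : ¬ IsField (L ⊗[W] ↥B1) := by
  haveI : IsDomain (K ⊗[W] ↥B1) := isDomain_base (K := K) B1
  exact Transc.not_isField_tensor_of_base (K := K) (L := L)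
    (not_isField_base (K := K) ht.inv.transcendental ht1 intcl1 int1)

end Charts

/-! ### The final statement -/

section Final

variable (c0 : TwoChart W ↥B0 ↥B1 ↥B01) [Algebra.FiniteType W ↥B0] [Algebra.FiniteType W ↥B1]
  {t : F} (ht : IsGen K t) (ht0 : t ∈ B0) (ht1 : t⁻¹ ∈ B1)
  (intcl0 : ∀ x : F, IsIntegral B0 x → x ∈ B0)
  (int0 : ∀ x ∈ B0, IsIntegral (Algebra.adjoin W {t}) x)
  (intcl1 : ∀ x : F, IsIntegral B1 x → x ∈ B1)
  (int1 : ∀ x ∈ B1, IsIntegral (Algebra.adjoin W {t⁻¹}) x)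
  (L Ω : Type u) [Field L] [Field Ω] [IsAlgClosed Ω]
  [Algebra K L] [Algebra W L] [IsScalarTower W K L]
  [Algebra K Ω] [Algebra W Ω] [IsScalarTower W K Ω]
  [Algebra L Ω] [IsScalarTower W L Ω]

include e he hinj h0 h1 ht ht0 ht1 intcl0 int0 intcl1 int1 in
/-- **Phi4 DESC' for a hub of subalgebras of a function field with a `q`-expansion, over ARBITRARY
fields `L ⊆ Ω` containing `K = Frac W`** (e.g. `p`-adic fields over a number field): the only
remaining hypothesis is `H⁰(X_L, O) = L`. -/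
theorem descStatement_hub (hH0 : H0Const (c0.baseChange L)) (G : Subgroup (L ≃ₐ[W] L))
    [Finite G] : DescStatement c0 L Ω G := by
  haveI := isDedekindDomain_chart0 e he hinj B0 B01 h0 L ht ht0 intcl0 int0
  haveI := isDedekindDomain_chart1 e he hinj B1 B01 h1 L ht ht1 intcl1 int1
  haveI := isDomain_overlap (L := L) e he hinj B01
  haveI := isDedekindDomain_chart0 e he hinj B0 B01 h0 Ω ht ht0 intcl0 int0
  haveI := isDedekindDomain_chart1 e he hinj B1 B01 h1 Ω ht ht1 intcl1 int1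
  haveI := isDomain_overlap (L := Ω) e he hinj B01
  exact Final.descStatement c0 L Ω hH0 G (lcHub (L := L) e he B01)
    (lcHub_ne_zero (L := L) e he B01 hinj) (lcHub_tmul_one (L := L) e he B01)
    (fun τ _ x => lcHub_gal (L := L) e he B01 τ x)

end Final

end Fermat.Agent.T1B.DescSep1.Gen
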