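/-
Programme T1B (S44 / row 38), brick Phi4 DESC' (helper1): THE NODAL HUB OVER ARBITRARY FIELDS.

`W` a domain with fraction field `K` of characteristic `0`,
`M : NodalTwoChartModel W F π t B0 B1 O1 O2` a nodal two-chart model inside a field `F` over `K` which
has an injective expansion `e : F →+* K((q))`, `t` a transcendental generator of `F / K`, the charts
of finite type over `W`.  For ARBITRARY fields `L ⊆ Ω` over `K` (`Ω` algebraically closed; e.g.
`L = E` a finite extension of `ℚ_p`, `Ω = ℚ̄_p`, `K` a number field), `G` a finite group of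
`W`-automorphisms of `L`:

* **`Gen.descStatement_nodalModel`** : `Desc1.DescStatement (nodalChart M) L Ω G` as soon as
  `H⁰(X_L, O) = L` (`NodalCoh30.concrete_h0Const` for Program N's model);
* `Gen.isDedekindDomain_nodalChart0/1`, `Gen.isDomain_nodalOverlap` : the generic-fibre hypotheses
  (for `hinvL0/hinvL1`, `hinv0/hinv1` of the consumers).
-/
import Mathlib
import Fermat.Agent.T1B.DescSep1.HubFinalGen
import Fermat.Agent.T1B.NodalFacts23.Good

set_option autoImplicit false
set_option linter.unusedSectionVars false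
set_option linter.style.haveILetI false

open TensorProduct

namespace Fermat.Agent.T1B.DescSep1.Gen

open HahnSeries ModularCurve
open Fermat.Agent.Jac Fermat.Agent.T1.Red68 Fermat.Agent.X0.FF
open Fermat.Agent.T1B.Desc1 Fermat.Agent.T1B.NodalFacts23
open Fermat.Agent.ES.N34.NodalCore13
open Fermat.Agent.T1.Coh60 (algebra0 algebra1 isScalarTower0 isScalarTower1)
open Fermat.Agent.Jac.BaseChange75
open scoped Fermat.Agent.Jac.BaseChange75

universe u

variable {W F : Type u} {K : Type*} [CommRing W] [IsDomain W] [Field K] [CharZero K]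
  [Algebra W K] [IsFractionRing W K] [Field F] [Algebra K F] [Algebra W F] [IsScalarTower W K F]
  (e : F →+* LaurentSeries K) (he : ∀ c : K, e (algebraMap K F c) = HahnSeries.C c)
  (hinj : Function.Injective e)
  {π : W} {t : F} {B0 B1 : Subalgebra W F} {O1 O2 : ValuationSubring F}
  (L Ω : Type u) [Field L] [Field Ω] [IsAlgClosed Ω]
  [Algebra K L] [Algebra W L] [IsScalarTower W K L]
  [Algebra K Ω] [Algebra W Ω] [IsScalarTower W K Ω]
  [Algebra L Ω] [IsScalarTower W L Ω]

include e he hinj in
/-- The overlap of the generic fibre of the nodal hub over `L` is a domain. -/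
theorem isDomain_nodalOverlap : IsDomain (L ⊗[W] ↥(B0 ⊔ B1)) :=
  isDomain_overlap (L := L) e he hinj (B0 ⊔ B1)

include e he hinj in
/-- Chart 0 of the generic fibre of the nodal hub over an arbitrary field `L ⊇ K` is Dedekind. -/
theorem isDedekindDomain_nodalChart0 (M : NodalTwoChartModel W F π t B0 B1 O1 O2)
    [Algebra.FiniteType W ↥B0] (ht : IsGen K t) : IsDedekindDomain (L ⊗[W] ↥B0) := by
  letI := algebra0 B0 B1
  haveI := isScalarTower0 B0 B1
  exact isDedekindDomain_chart0 e he hinj B0 (B0 ⊔ B1) (fun _ => rfl) L ht M.t_mem M.intcl0 M.int0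

include e he hinj in
/-- Chart 1 of the generic fibre of the nodal hub over an arbitrary field `L ⊇ K` is Dedekind. -/
theorem isDedekindDomain_nodalChart1 (M : NodalTwoChartModel W F π t B0 B1 O1 O2)
    [Algebra.FiniteType W ↥B1] (ht : IsGen K t) : IsDedekindDomain (L ⊗[W] ↥B1) := by
  letI := algebra1 B0 B1
  haveI := isScalarTower1 B0 B1
  exact isDedekindDomain_chart1 e he hinj B1 (B0 ⊔ B1) (fun _ => rfl) L ht M.tinv_mem M.intcl1
    M.int1

include e he hinj in
/-- **Φ4 DESC′ for the hub of a nodal two-chart model over arbitrary fields `L ⊆ Ω` containing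
`K = Frac W`.** -/
theorem descStatement_nodalModel (M : NodalTwoChartModel W F π t B0 B1 O1 O2)
    [Algebra.FiniteType W ↥B0] [Algebra.FiniteType W ↥B1] (ht : IsGen K t)
    (hH0 :
      letI := algebra0 B0 B1
      letI := algebra1 B0 B1
      haveI := isScalarTower0 B0 B1
      haveI := isScalarTower1 B0 B1
      H0Const ((nodalChart M).baseChange L))
    (G : Subgroup (L ≃ₐ[W] L)) [Finite G] :
    letI := algebra0 B0 B1
    letI := algebra1 B0 B1
    haveI := isScalarTower0 B0 B1
    haveI := isScalarTower1 B0 B1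
    DescStatement (nodalChart M) L Ω G := by
  letI := algebra0 B0 B1
  letI := algebra1 B0 B1
  haveI := isScalarTower0 B0 B1
  haveI := isScalarTower1 B0 B1
  exact descStatement_hub e he hinj B0 B1 (B0 ⊔ B1) (fun _ => rfl) (fun _ => rfl)
    (nodalChart M) ht M.t_mem M.tinv_mem M.intcl0 M.int0 M.intcl1 M.int1 L Ω hH0 G

end Fermat.Agent.T1B.DescSep1.Gen
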