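/-
Programme T1B (S44 / row 38), brick Phi4 DESC' (owner helper1): THE NUMBER-FIELD FORM FOR A HUB OF
SUBALGEBRAS OF A FUNCTION FIELD.

`A` a valuation ring of `ℚ̄`, `K ⊂ ℚ̄` fixed pointwise by the inertia group of `A`, `W = A ∩ K`,
`F` a field over `K` with an injective expansion `e : F →+* K((q))`, `B0 B1 B01 : Subalgebra W F` the
charts of `c0 : TwoChart W ↥B0 ↥B1 ↥B01` (e.g. the nodal hub `NodalFacts23.nodalChart M` inside
`F = FK N K`, `e` the inclusion `FK N K ⊂ K((q))`).  Then `Node45.DescIface.DescAt A c0 hK N hle`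
holds for every finite normal `N ⊇ K` as soon as `H⁰(X_N, O) = N`:

* **`descAt_hub`**.
-/
import Mathlib
import Fermat.Agent.T1B.DescSep1.HubFinal
import Fermat.Agent.T1B.Desc8.DescAt

set_option autoImplicit false
set_option linter.unusedSectionVars false
set_option linter.style.haveILetI false

open TensorProduct

namespace Fermat.Agent.T1B.DescSep1

open HahnSeries ModularCurve
open Fermat.Agent.Jac Fermat.Agent.T1.Red68 Fermat.Agent.X0.FF Fermat.Agent.T1.PtLine75
open Fermat.Agent.T1B.Desc1 Fermat.Agent.T1B.Desc8.DescAt Fermat.Agent.T1B.Node45.DescIface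
open Fermat.Agent.T1.HubInst98 Fermat.Agent.RED.Interface4
open Fermat.Agent.Jac.BaseChange75
open scoped Fermat.Agent.Jac.BaseChange75

variable (A : ValuationSubring Qbar) {K : IntermediateField ℚ Qbar}

/-- A subfield of `ℚ̄` is algebraic over a smaller one. -/
theorem isAlgebraic_of_le {N : IntermediateField ℚ Qbar} (hle : K ≤ N) :
    letI := algKL hle
    Algebra.IsAlgebraic ↥K ↥N := by
  letI := algKL hle
  haveI : IsScalarTower ℚ ↥K ↥N := IsScalarTower.of_algebraMap_eq fun q => by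
    rw [eq_ratCast (algebraMap ℚ ↥N) q, eq_ratCast (algebraMap ℚ ↥K) q, map_ratCast]
  haveI : Algebra.IsAlgebraic ℚ Qbar := AlgebraicClosure.isAlgebraic ℚ
  haveI : Algebra.IsAlgebraic ℚ ↥N :=
    Algebra.IsAlgebraic.of_injective (IsScalarTower.toAlgHom ℚ ↥N Qbar) Subtype.val_injective
  exact Algebra.IsAlgebraic.tower_top (K := ℚ) ↥K

variable (hK : ∀ τ ∈ A.inertiaSubgroupIn ℚ, ∀ x ∈ K, τ x = x)
  (N : IntermediateField ℚ Qbar) [FiniteDimensional ℚ N] [Normal ℚ N] (hle : K ≤ N)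
  {F : Type} [Field F] [Algebra ↥K F] [Algebra ↥(AK A K) F] [IsScalarTower ↥(AK A K) ↥K F]
  (e : F →+* LaurentSeries ↥K) (he : ∀ c : ↥K, e (algebraMap ↥K F c) = HahnSeries.C c)
  (hinj : Function.Injective e)
  (B0 B1 B01 : Subalgebra ↥(AK A K) F) [Algebra ↥B0 ↥B01] [Algebra ↥B1 ↥B01]
  [IsScalarTower ↥(AK A K) ↥B0 ↥B01] [IsScalarTower ↥(AK A K) ↥B1 ↥B01]
  (h0 : ∀ x : ↥B0, ((algebraMap ↥B0 ↥B01 x : ↥B01) : F) = x)
  (h1 : ∀ x : ↥B1, ((algebraMap ↥B1 ↥B01 x : ↥B01) : F) = x)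
  (c0 : TwoChart ↥(AK A K) ↥B0 ↥B1 ↥B01)
  [Algebra.FiniteType ↥(AK A K) ↥B0] [Algebra.FiniteType ↥(AK A K) ↥B1]
  {t : F} (ht : IsGen ↥K t) (ht0 : t ∈ B0) (ht1 : t⁻¹ ∈ B1)
  (intcl0 : ∀ x : F, IsIntegral B0 x → x ∈ B0)
  (int0 : ∀ x ∈ B0, IsIntegral (Algebra.adjoin ↥(AK A K) {t}) x)
  (intcl1 : ∀ x : F, IsIntegral B1 x → x ∈ B1)
  (int1 : ∀ x ∈ B1, IsIntegral (Algebra.adjoin ↥(AK A K) {t⁻¹}) x)

include e he hinj h0 h1 ht ht0 ht1 intcl0 int0 intcl1 int1 in
/-- **Φ4 DESC′ at the number-field level for a hub of subalgebras of a function field with a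
`q`-expansion.** -/
theorem descAt_hub
    (hH0 : letI := algAKL A hle; H0Const (c0.baseChange ↥N)) :
    DescAt A c0 hK N hle := by
  -- the point ideals over the finite normal extensions are invertible
  have hinv0 : ∀ (N' : IntermediateField ℚ Qbar) (_ : FiniteDimensional ℚ N') (_ : Normal ℚ N')
      (hN : N ≤ N'),
      letI := algAKL A (hle.trans hN)
      ∀ q : ↥B0 →ₐ[AK A K] ↥N', Module.Invertible (↥N' ⊗[AK A K] ↥B0) (ptIdeal q) := by
    intro N' _ _ hN
    letI := algAKL A (hle.trans hN)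
    letI := algKL (hle.trans hN)
    haveI := isScalarTower_AK_K A (hle.trans hN)
    haveI := isAlgebraic_of_le (hle.trans hN)
    intro q
    haveI := isDedekindDomain_chart0 e he hinj B0 B01 h0 ↥N' ht ht0 intcl0 int0
    exact invertible_ptIdeal_of_isDedekindDomain
      (not_isField_chart0 e he hinj B0 B01 h0 ↥N' ht ht0 intcl0 int0) q
  have hinv1 : ∀ (N' : IntermediateField ℚ Qbar) (_ : FiniteDimensional ℚ N') (_ : Normal ℚ N')
      (hN : N ≤ N'),
      letI := algAKL A (hle.trans hN)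
      ∀ q : ↥B1 →ₐ[AK A K] ↥N', Module.Invertible (↥N' ⊗[AK A K] ↥B1) (ptIdeal q) := by
    intro N' _ _ hN
    letI := algAKL A (hle.trans hN)
    letI := algKL (hle.trans hN)
    haveI := isScalarTower_AK_K A (hle.trans hN)
    haveI := isAlgebraic_of_le (hle.trans hN)
    intro q
    haveI := isDedekindDomain_chart1 e he hinj B1 B01 h1 ↥N' ht ht1 intcl1 int1
    exact invertible_ptIdeal_of_isDedekindDomain
      (not_isField_chart1 e he hinj B1 B01 h1 ↥N' ht ht1 intcl1 int1) q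
  refine descAt_of_descStatement A hK N hle c0 hinv0 hinv1 ?_
  letI := algAKL A hle
  letI := algKL hle
  haveI := isScalarTower_AK_K A hle
  haveI := isAlgebraic_of_le hle
  haveI tN : IsScalarTower (AK A K) ↥N Qbar := IsScalarTower.of_algebraMap_eq' rfl
  haveI tK : IsScalarTower (AK A K) ↥K Qbar := IsScalarTower.of_algebraMap_eq' rfl
  haveI : Algebra.IsAlgebraic ℚ Qbar := AlgebraicClosure.isAlgebraic ℚ
  haveI : Algebra.IsAlgebraic ↥K Qbar := Algebra.IsAlgebraic.tower_top (K := ℚ) ↥K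
  haveI : Finite (inertiaImage A hK N hle) := finite_inertiaImage A hK N hle
  exact descStatement_hub e he hinj B0 B1 B01 h0 h1 c0 ht ht0 ht1 intcl0 int0 intcl1 int1
    ↥N Qbar hH0 (inertiaImage A hK N hle)

end Fermat.Agent.T1B.DescSep1
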