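/-
Programme T1B (S44 / row 38), brick Phi4 DESC' (owner helper1): THE NODAL HUB.

`M : NodalTwoChartModel ↥(AK A K) F π t B0 B1 O1 O2` a nodal two-chart model inside a field `F` over
`K` which has an injective expansion `e : F →+* K((q))` (e.g. `F = FK N K ⊂ K((q))`), `t` a
transcendental generator of `F / K`, the charts of finite type over `A ∩ K`.  Then
`Node45.DescIface.DescAt A (nodalChart M) hK N hle` holds for every finite normal `N ⊇ K` as soon as
`H⁰(X_N, O) = N` (`NodalCoh30.concrete_h0Const` for Program N's model):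

* **`descAt_nodalModel`**.
-/
import Mathlib
import Fermat.Agent.T1B.DescSep1.NumField
import Fermat.Agent.T1B.NodalFacts23.Good

set_option autoImplicit false
set_option linter.unusedSectionVars false
set_option linter.style.haveILetI false

open TensorProduct

namespace Fermat.Agent.T1B.DescSep1

open HahnSeries ModularCurve
open Fermat.Agent.Jac Fermat.Agent.T1.Red68 Fermat.Agent.X0.FF
open Fermat.Agent.T1B.Node45.DescIface Fermat.Agent.T1B.NodalFacts23
open Fermat.Agent.ES.N34.NodalCore13
open Fermat.Agent.T1.Coh60 (algebra0 algebra1 isScalarTower0 isScalarTower1)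
open Fermat.Agent.T1.HubInst98 Fermat.Agent.RED.Interface4
open Fermat.Agent.Jac.BaseChange75
open scoped Fermat.Agent.Jac.BaseChange75

variable (A : ValuationSubring Qbar) {K : IntermediateField ℚ Qbar}
  (hK : ∀ τ ∈ A.inertiaSubgroupIn ℚ, ∀ x ∈ K, τ x = x)
  (N : IntermediateField ℚ Qbar) [FiniteDimensional ℚ N] [Normal ℚ N] (hle : K ≤ N)
  {F : Type} [Field F] [Algebra ↥K F] [Algebra ↥(AK A K) F] [IsScalarTower ↥(AK A K) ↥K F]
  (e : F →+* LaurentSeries ↥K) (he : ∀ c : ↥K, e (algebraMap ↥K F c) = HahnSeries.C c)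
  (hinj : Function.Injective e)
  {π : ↥(AK A K)} {t : F} {B0 B1 : Subalgebra ↥(AK A K) F} {O1 O2 : ValuationSubring F}

include e he hinj in
/-- **Φ4 DESC′ for the hub of a nodal two-chart model.** -/
theorem descAt_nodalModel (M : NodalTwoChartModel ↥(AK A K) F π t B0 B1 O1 O2)
    [Algebra.FiniteType ↥(AK A K) ↥B0] [Algebra.FiniteType ↥(AK A K) ↥B1] (ht : IsGen ↥K t)
    (hH0 :
      letI := algebra0 B0 B1
      letI := algebra1 B0 B1
      haveI := isScalarTower0 B0 B1
      haveI := isScalarTower1 B0 B1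
      letI := algAKL A hle
      H0Const ((nodalChart M).baseChange ↥N)) :
    letI := algebra0 B0 B1
    letI := algebra1 B0 B1
    haveI := isScalarTower0 B0 B1
    haveI := isScalarTower1 B0 B1
    DescAt A (nodalChart M) hK N hle := by
  letI := algebra0 B0 B1
  letI := algebra1 B0 B1
  haveI := isScalarTower0 B0 B1
  haveI := isScalarTower1 B0 B1
  exact descAt_hub A hK N hle e he hinj B0 B1 (B0 ⊔ B1) (fun _ => rfl) (fun _ => rfl)
    (nodalChart M) ht M.t_mem M.tinv_mem M.intcl0 M.int0 M.intcl1 M.int1 hH0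

end Fermat.Agent.T1B.DescSep1
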