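/-
Programme T1B (S44 / row 38), brick Phi4 DESC' (helper1): THE CHARTS OF A NODAL TWO-CHART MODEL OVER
A DVR ARE OF FINITE TYPE.

`W` a DVR with fraction field `K` of characteristic `0`, `F` a field over `K`,
`M : NodalTwoChartModel W F π t B0 B1 O1 O2`, `t` a transcendental generator (`X0.FF.IsGen K t`):

* `eq_chart0`, `eq_chart1` : `B0 = chart W t`, `B1 = chart W t⁻¹` (integral closures of `W[t^{±1}]`);
* **`finiteType_chart0`, `finiteType_chart1`, `finiteType_overlap`** : `↥B0`, `↥B1`, `↥(B0 ⊔ B1)` are
  `W`-algebras of finite type (`RED.ChartTransferInst3.finiteType_chart`).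
-/
import Mathlib
import Fermat.Agent.RED.ChartTransferInst3
import Fermat.Agent.T1B.NodalFacts23.Good
import Fermat.Agent.X0.FFSum

set_option autoImplicit false
set_option linter.unusedSectionVars false
set_option linter.style.haveILetI false

namespace Fermat.Agent.T1B.DescSep1.NodalFinType

open Fermat.Agent.X0.FF Fermat.Agent.T1B.NodalFacts23 Fermat.Agent.ES.N34.NodalCore13
open Fermat.Agent.RED.PUR.ChartGeneric22 Fermat.Agent.RED.ChartTransferInst3
open Fermat.Agent.T1.Coh60 (algebra0 algebra1 isScalarTower0 isScalarTower1)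

universe u

variable {W F : Type u} {K : Type*} [CommRing W] [Field K] [Field F] [Algebra W K] [Algebra K F] [Algebra W F]
  [IsScalarTower W K F] {π : W} {t : F} {B0 B1 : Subalgebra W F} {O1 O2 : ValuationSubring F}

/-- A subalgebra containing `t`, integrally closed in `F` and integral over `W[t]`, is the chart. -/
theorem eq_chart_of_intcl (B : Subalgebra W F) {t : F} (ht : t ∈ B)
    (intcl : ∀ x : F, IsIntegral B x → x ∈ B)
    (int : ∀ x ∈ B, IsIntegral (Algebra.adjoin W {t}) x) : B = chart W t := by
  apply le_antisymm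
  · intro x hx
    exact int x hx
  · intro x hx
    rw [mem_chart_iff] at hx
    apply intcl
    have hle : Algebra.adjoin W {t} ≤ B := Algebra.adjoin_le (Set.singleton_subset_iff.2 ht)
    obtain ⟨p, hpm, hpe⟩ := hx
    refine ⟨p.map (Subalgebra.inclusion hle : ↥(Algebra.adjoin W {t}) →+* ↥B), hpm.map _, ?_⟩
    rw [Polynomial.eval₂_map]
    exact hpe

theorem eq_chart0 (M : NodalTwoChartModel W F π t B0 B1 O1 O2) : B0 = chart W t :=
  eq_chart_of_intcl B0 M.t_mem M.intcl0 M.int0

theorem eq_chart1 (M : NodalTwoChartModel W F π t B0 B1 O1 O2) : B1 = chart W t⁻¹ :=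
  eq_chart_of_intcl B1 M.tinv_mem M.intcl1 M.int1

variable [IsDomain W] [IsDiscreteValuationRing W] [IsFractionRing W K] [CharZero K]

include K in
/-- Chart 0 of a nodal two-chart model over a DVR is of finite type. -/
theorem finiteType_chart0 (M : NodalTwoChartModel W F π t B0 B1 O1 O2) (ht : IsGen K t) :
    Algebra.FiniteType W ↥B0 := by
  haveI := ht.finite
  have h := finiteType_chart (A := W) (K := K) t ht.transcendental
  rw [← eq_chart0 M] at h
  exact h

include K in
/-- Chart 1 of a nodal two-chart model over a DVR is of finite type. -/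
theorem finiteType_chart1 (M : NodalTwoChartModel W F π t B0 B1 O1 O2) (ht : IsGen K t) :
    Algebra.FiniteType W ↥B1 := by
  haveI := ht.inv.finite
  have h := finiteType_chart (A := W) (K := K) t⁻¹ ht.inv.transcendental
  rw [← eq_chart1 M] at h
  exact h

include K in
/-- The overlap of a nodal two-chart model over a DVR is of finite type. -/
theorem finiteType_overlap (M : NodalTwoChartModel W F π t B0 B1 O1 O2) (ht : IsGen K t) :
    Algebra.FiniteType W ↥(B0 ⊔ B1) := by
  letI := algebra0 B0 B1
  haveI := isScalarTower0 B0 B1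
  haveI := finiteType_chart0 (K := K) M ht
  haveI : IsLocalization.Away (⟨t, M.t_mem⟩ : ↥B0) ↥(B0 ⊔ B1) := away0 M
  haveI : Algebra.FiniteType ↥B0 ↥(B0 ⊔ B1) :=
    IsLocalization.finiteType_of_monoid_fg (Submonoid.powers (⟨t, M.t_mem⟩ : ↥B0)) ↥(B0 ⊔ B1)
  exact Algebra.FiniteType.trans (inferInstance : Algebra.FiniteType W ↥B0) inferInstance

end Fermat.Agent.T1B.DescSep1.NodalFinType
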