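/-
Programme T1B (S44 / row 38), brick Phi4 DESC' (helper1): THE NODAL HUB OVER A DVR — TURNKEY FORMS
(no `Algebra.FiniteType` hypotheses: `DescSep1/NodalFinType.lean`).

`W` a DVR with fraction field `K` of characteristic `0`, `M : NodalTwoChartModel W F π t B0 B1 O1 O2`
inside a field `F` over `K` with an injective expansion `e : F →+* K((q))`, `ht : IsGen K t`.

* `Dvr.isDedekindDomain_nodalChart0/1`, `Dvr.not_isField_nodalChart0/1`, `Dvr.isDomain_nodalOverlap`
  over an ARBITRARY field `L ⊇ K`;
* **`Dvr.descStatement_nodalModel`** : `Desc1.DescStatement (nodalChart M) L Ω G` for arbitrary fields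
  `L ⊆ Ω` over `K` (`Ω` algebraically closed, `G` finite) from `H⁰(X_L, O) = L`;
* **`Dvr.descAt_nodalModel`** : the number-field form `Node45.DescIface.DescAt A (nodalChart M) hK N hle`
  (`W = A ∩ K`).
-/
import Mathlib
import Fermat.Agent.T1B.DescSep1.NodalModelGen
import Fermat.Agent.T1B.DescSep1.NodalModel
import Fermat.Agent.T1B.DescSep1.NodalFinType

set_option autoImplicit false
set_option linter.unusedSectionVars false
set_option linter.style.haveILetI false

open TensorProduct

namespace Fermat.Agent.T1B.DescSep1.Dvr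

open HahnSeries ModularCurve
open Fermat.Agent.Jac Fermat.Agent.T1.Red68 Fermat.Agent.X0.FF
open Fermat.Agent.T1B.Desc1 Fermat.Agent.T1B.NodalFacts23
open Fermat.Agent.T1B.Node45.DescIface
open Fermat.Agent.ES.N34.NodalCore13
open Fermat.Agent.T1.Coh60 (algebra0 algebra1 isScalarTower0 isScalarTower1)
open Fermat.Agent.T1.HubInst98 Fermat.Agent.RED.Interface4
open Fermat.Agent.T1B.DescSep1.NodalFinType
open Fermat.Agent.Jac.BaseChange75
open scoped Fermat.Agent.Jac.BaseChange75

universe u

section General

variable {W F : Type u} {K : Type*} [CommRing W] [IsDomain W] [IsDiscreteValuationRing W]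
  [Field K] [CharZero K]
  [Algebra W K] [IsFractionRing W K] [Field F] [Algebra K F] [Algebra W F] [IsScalarTower W K F]
  (e : F →+* LaurentSeries K) (he : ∀ c : K, e (algebraMap K F c) = HahnSeries.C c)
  (hinj : Function.Injective e)
  {π : W} {t : F} {B0 B1 : Subalgebra W F} {O1 O2 : ValuationSubring F}
  (L Ω : Type u) [Field L] [Field Ω] [IsAlgClosed Ω]
  [Algebra K L] [Algebra W L] [IsScalarTower W K L]
  [Algebra K Ω] [Algebra W Ω] [IsScalarTower W K Ω]
  [Algebra L Ω] [IsScalarTower W L Ω]

include e he hinj in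
/-- The overlap of the generic fibre of the nodal hub over `L` is a domain. -/
theorem isDomain_nodalOverlap : IsDomain (L ⊗[W] ↥(B0 ⊔ B1)) :=
  Gen.isDomain_nodalOverlap e he hinj L

include e he hinj in
/-- Chart 0 of the generic fibre of the nodal hub over an arbitrary field `L ⊇ K` is Dedekind. -/
theorem isDedekindDomain_nodalChart0 (M : NodalTwoChartModel W F π t B0 B1 O1 O2)
    (ht : IsGen K t) : IsDedekindDomain (L ⊗[W] ↥B0) :=
  haveI := finiteType_chart0 (K := K) M ht
  Gen.isDedekindDomain_nodalChart0 e he hinj L M ht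

include e he hinj in
/-- Chart 1 of the generic fibre of the nodal hub over an arbitrary field `L ⊇ K` is Dedekind. -/
theorem isDedekindDomain_nodalChart1 (M : NodalTwoChartModel W F π t B0 B1 O1 O2)
    (ht : IsGen K t) : IsDedekindDomain (L ⊗[W] ↥B1) :=
  haveI := finiteType_chart1 (K := K) M ht
  Gen.isDedekindDomain_nodalChart1 e he hinj L M ht

/-- Chart 0 of the generic fibre of the nodal hub over `L` is not a field. -/
theorem not_isField_nodalChart0 (M : NodalTwoChartModel W F π t B0 B1 O1 O2) (ht : IsGen K t) :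
    ¬ IsField (L ⊗[W] ↥B0) :=
  Gen.not_isField_chart0 B0 L ht M.t_mem M.intcl0 M.int0

/-- Chart 1 of the generic fibre of the nodal hub over `L` is not a field. -/
theorem not_isField_nodalChart1 (M : NodalTwoChartModel W F π t B0 B1 O1 O2) (ht : IsGen K t) :
    ¬ IsField (L ⊗[W] ↥B1) :=
  Gen.not_isField_chart1 B1 L ht M.tinv_mem M.intcl1 M.int1

include e he hinj in
/-- **Φ4 DESC′ for the hub of a nodal two-chart model over a DVR, over arbitrary fields `L ⊆ Ω`
containing `K = Frac W`.** -/
theorem descStatement_nodalModel (M : NodalTwoChartModel W F π t B0 B1 O1 O2) (ht : IsGen K t)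
    (hH0 :
      letI := algebra0 B0 B1
      letI := algebra1 B0 B1
      haveI := isScalarTower0 B0 B1
      haveI := isScalarTower1 B0 B1
      H0Const ((nodalChart M).baseChange L))
    (G : Subgroup (L ≃ₐ[W] L)) [Finite G] :
    letI := algebra0 B0 B1
    letI := algebra1 B0 B1
    haveI := isScalarTower0 B0 B1
    haveI := isScalarTower1 B0 B1
    DescStatement (nodalChart M) L Ω G :=
  haveI := finiteType_chart0 (K := K) M ht
  haveI := finiteType_chart1 (K := K) M ht
  Gen.descStatement_nodalModel e he hinj L Ω M ht hH0 G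

end General

section NumberField

variable (A : ValuationSubring Qbar) {K : IntermediateField ℚ Qbar}
  [IsDiscreteValuationRing ↥(AK A K)]
  (hK : ∀ τ ∈ A.inertiaSubgroupIn ℚ, ∀ x ∈ K, τ x = x)
  (N : IntermediateField ℚ Qbar) [FiniteDimensional ℚ N] [Normal ℚ N] (hle : K ≤ N)
  {F : Type} [Field F] [Algebra ↥K F] [Algebra ↥(AK A K) F] [IsScalarTower ↥(AK A K) ↥K F]
  (e : F →+* LaurentSeries ↥K) (he : ∀ c : ↥K, e (algebraMap ↥K F c) = HahnSeries.C c)
  (hinj : Function.Injective e)
  {π : ↥(AK A K)} {t : F} {B0 B1 : Subalgebra ↥(AK A K) F} {O1 O2 : ValuationSubring F}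

include e he hinj in
/-- **Φ4 DESC′ at the number-field levels for the hub of a nodal two-chart model over `A ∩ K`.** -/
theorem descAt_nodalModel (M : NodalTwoChartModel ↥(AK A K) F π t B0 B1 O1 O2) (ht : IsGen ↥K t)
    (hH0 :
      letI := algebra0 B0 B1
      letI := algebra1 B0 B1
      haveI := isScalarTower0 B0 B1
      haveI := isScalarTower1 B0 B1
      letI := algAKL A hle
      H0Const ((nodalChart M).baseChange ↥N)) :
    letI := algebra0 B0 B1
    letI := algebra1 B0 B1
    haveI := isScalarTower0 B0 B1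
    haveI := isScalarTower1 B0 B1
    DescAt A (nodalChart M) hK N hle :=
  haveI := finiteType_chart0 (K := ↥K) M ht
  haveI := finiteType_chart1 (K := ↥K) M ht
  DescSep1.descAt_nodalModel A hK N hle e he hinj M ht hH0

end NumberField

end Fermat.Agent.T1B.DescSep1.Dvr
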