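/-
Programme T1B (row 38 / S44), cell NODE/PHI, Φ last mile (helper1, second of helper45):
**THE INPUTS `hinv0 hinv1 hgen hdesc hinj` OF `Node45.LocalPhi` FOR THE NODAL HUB.**

`W = Wb p K` (a DVR), `M : NodalTwoChartModel W F π t B0 B1 O1 O2` a nodal two-chart model inside a
field `F ⊇ K` with an injective expansion `e : F →+* K((q))`, `ht : IsGen K t`, `c0 := nodalChart M`.

* `finiteType_B0`, `finiteType_B1` : the chart rings are of finite type over `W`;
* `hinv0`, `hinv1` : every `E`-point of a chart has an invertible ideal (`E : NLevel p K`);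
* `hgen` : `Pic X_{ℚ̄_p}` is generated by the classes of points (helper60's PT-GEN);
* `ptTop_eq_top` : `PtTop c0 = ⊤`;
* `hdesc` : `DescStatement c0 E ℚ̄_p (GE hK E)` at every normal level, from `H⁰(X_E, O) = E`;
* `hinjE` : `Pic X_E → Pic X_{ℚ̄_p}` is injective, from `H⁰(X_{ℚ̄_p}, O) = ℚ̄_p`;
* **`phi_glue_nodal`**, **`mem_JextTop_of_invariant_nodal`** : `LocalPhi.phi_glue`,
  `LocalPhi.mem_JextTop_of_invariant` for the nodal hub, with `LevelData` at every level and the
  two `H⁰` statements as the only inputs.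
-/
import Mathlib
import Fermat.Agent.T1B.Node45.LocalPhi
import Fermat.Agent.T1B.DescSep1.NodalModelDvr
import Fermat.Agent.T1B.Bal60.PtGen
import Fermat.Agent.T1B.AD69.HinjE

set_option autoImplicit false
set_option linter.unusedSectionVars false
set_option linter.style.haveILetI false
set_option synthInstance.maxHeartbeats 400000
set_option maxHeartbeats 1000000

open TensorProduct

open Fermat.Agent.TW.B5.Iface Fermat.Agent.RED.Interface4 Fermat.Agent.T1.HubInst98
open Fermat.Agent.T1.IntSub47 Fermat.Agent.Jac Fermat.Agent.T1.RedIface75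
open Fermat.Agent.T1.PtLine75 Fermat.Agent.T1.Red68
open Fermat.Agent.T1B.Local66.LocalBase Fermat.Agent.T1B.Local66.Union
open Fermat.Agent.T1B.Local66.Objects
open Fermat.Agent.T1B.Plumb66.Inertia (Ip mem_Ip)
open Fermat.Agent.T1B.Bridge54.IpAction Fermat.Agent.T1B.Bridge54.IpInst
open Fermat.Agent.ES.P36.InertField27 (InertFixed)
open Fermat.Agent.T1B.Desc1 Fermat.Agent.T1B.NodalFacts23
open Fermat.Agent.ES.N34.NodalCore13 Fermat.Agent.X0.FF
open Fermat.Agent.T1.Coh60 (algebra0 algebra1 isScalarTower0 isScalarTower1)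
open Fermat.Agent.T1B.Node45.LocalPhi
open Fermat.Agent.T1B.DescSep1.NodalFinType
open scoped Fermat.Agent.Jac.BaseChange75

noncomputable section

namespace Fermat.Agent.T1B.DescSep1.LocalPhiInst

variable {p : ℕ} [Fact p.Prime] {K : IntermediateField ℚ Qbar}
  [IsDiscreteValuationRing (Wb p K)]
  {F : Type} [Field F] [Algebra ↥K F] [Algebra (Wb p K) F] [IsScalarTower (Wb p K) ↥K F]
  (e : F →+* LaurentSeries ↥K) (he : ∀ c : ↥K, e (algebraMap ↥K F c) = HahnSeries.C c)
  (hinj : Function.Injective e)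
  {π : Wb p K} {t : F} {B0 B1 : Subalgebra (Wb p K) F} {O1 O2 : ValuationSubring F}
  (M : NodalTwoChartModel (Wb p K) F π t B0 B1 O1 O2) (ht : IsGen ↥K t)

/-! NB: the hub is always written with its type ascribed,
`(nodalChart M : TwoChart (Wb p K) ↥B0 ↥B1 ↥(B0 ⊔ B1))`: this makes elaboration fast (no unification
of instance metavariables; a bare `nodalChart M` costs about 40 s per occurrence). -/

/-- `E` as a `K`-algebra. -/
abbrev algKE' {E : IntermediateField ℚ_[p] (Kbar p)} (h : IsLevel p K E) : Algebra ↥K ↥E :=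
  (toE h).toAlgebra

/-- `ℚ̄_p` as a `K`-algebra. -/
abbrev algKKbar' (p : ℕ) [Fact p.Prime] (K : IntermediateField ℚ Qbar) : Algebra ↥K (Kbar p) :=
  (iotaK p K).toAlgebra

include M ht in
/-- Chart 0 is of finite type over `W`. -/
theorem finiteType_B0 : Algebra.FiniteType (Wb p K) ↥B0 := finiteType_chart0 (K := ↥K) M ht

include M ht in
/-- Chart 1 is of finite type over `W`. -/
theorem finiteType_B1 : Algebra.FiniteType (Wb p K) ↥B1 := finiteType_chart1 (K := ↥K) M ht

include e he hinj M ht in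
/-- **`hinv0`**: every `E`-point of chart 0 has an invertible ideal. -/
theorem hinv0 (E : NLevel p K) :
    letI := algWE E.lev
    ∀ q : ↥B0 →ₐ[Wb p K] ↥E.E, Module.Invertible (↥E.E ⊗[Wb p K] ↥B0) (ptIdeal q) := by
  letI := algWE E.lev
  letI := algKE' E.lev
  haveI : IsScalarTower (Wb p K) ↥K ↥E.E := IsScalarTower.of_algebraMap_eq' rfl
  haveI := Dvr.isDedekindDomain_nodalChart0 e he hinj ↥E.E M ht
  exact Fermat.Agent.T1B.Desc8.DescAt.invertible_ptIdeal_of_isDedekindDomain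
    (Dvr.not_isField_nodalChart0 (K := ↥K) ↥E.E M ht)

include e he hinj M ht in
/-- **`hinv1`**: every `E`-point of chart 1 has an invertible ideal. -/
theorem hinv1 (E : NLevel p K) :
    letI := algWE E.lev
    ∀ q : ↥B1 →ₐ[Wb p K] ↥E.E, Module.Invertible (↥E.E ⊗[Wb p K] ↥B1) (ptIdeal q) := by
  letI := algWE E.lev
  letI := algKE' E.lev
  haveI : IsScalarTower (Wb p K) ↥K ↥E.E := IsScalarTower.of_algebraMap_eq' rfl
  haveI := Dvr.isDedekindDomain_nodalChart1 e he hinj ↥E.E M ht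
  exact Fermat.Agent.T1B.Desc8.DescAt.invertible_ptIdeal_of_isDedekindDomain
    (Dvr.not_isField_nodalChart1 (K := ↥K) ↥E.E M ht)

include e he hinj M ht in
/-- **`hgen`** (PT-GEN): `Pic X_{ℚ̄_p}` is generated by the classes of points. -/
theorem hgen :
    letI := algebra0 B0 B1
    letI := algebra1 B0 B1
    haveI := isScalarTower0 B0 B1
    haveI := isScalarTower1 B0 B1
    letI := algWKbar p K
    (pointClasses (nodalChart M : TwoChart (Wb p K) ↥B0 ↥B1 ↥(B0 ⊔ B1))).PicPt (Kbar p) = ⊤ := by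
  letI := algebra0 B0 B1
  letI := algebra1 B0 B1
  haveI := isScalarTower0 B0 B1
  haveI := isScalarTower1 B0 B1
  letI := algWKbar p K
  letI := algKKbar' p K
  haveI : IsScalarTower (Wb p K) ↥K (Kbar p) := IsScalarTower.of_algebraMap_eq' rfl
  haveI := finiteType_B0 M ht
  haveI := finiteType_B1 M ht
  haveI := Dvr.isDedekindDomain_nodalChart0 e he hinj (Kbar p) M ht
  haveI := Dvr.isDedekindDomain_nodalChart1 e he hinj (Kbar p) M ht
  haveI : IsDomain (Kbar p ⊗[Wb p K] ↥(B0 ⊔ B1)) :=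
    Dvr.isDomain_nodalOverlap (B0 := B0) (B1 := B1) e he hinj (Kbar p)
  exact Fermat.Agent.T1B.Bal60.PtGen.picPt_eq_top (nodalChart M : TwoChart (Wb p K) ↥B0 ↥B1 ↥(B0 ⊔ B1)) (Kbar p)

include e he hinj M ht in
/-- **`PtTop = ⊤`** for the nodal hub. -/
theorem ptTop_eq_top [Nonempty (NLevel p K)] :
    letI := algebra0 B0 B1
    letI := algebra1 B0 B1
    haveI := isScalarTower0 B0 B1
    haveI := isScalarTower1 B0 B1
    PtTop (nodalChart M : TwoChart (Wb p K) ↥B0 ↥B1 ↥(B0 ⊔ B1)) = ⊤ := by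
  letI := algebra0 B0 B1
  letI := algebra1 B0 B1
  haveI := isScalarTower0 B0 B1
  haveI := isScalarTower1 B0 B1
  haveI := finiteType_B0 M ht
  haveI := finiteType_B1 M ht
  exact PtTop_eq_top (nodalChart M : TwoChart (Wb p K) ↥B0 ↥B1 ↥(B0 ⊔ B1)) (hinv0 e he hinj M ht) (hinv1 e he hinj M ht)
    (hgen e he hinj M ht)

include e he hinj M ht in
/-- **`hdesc`**: Galois descent of invariant classes of points at the level `E`, for the image of
inertia. -/
theorem hdesc (hK : InertFixed (padicPlace p) K) (E : NLevel p K)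
    (hH0 :
      letI := algebra0 B0 B1
      letI := algebra1 B0 B1
      haveI := isScalarTower0 B0 B1
      haveI := isScalarTower1 B0 B1
      letI := algWE E.lev
      H0Const ((nodalChart M : TwoChart (Wb p K) ↥B0 ↥B1 ↥(B0 ⊔ B1)).baseChange ↥E.E)) :
    letI := algebra0 B0 B1
    letI := algebra1 B0 B1
    haveI := isScalarTower0 B0 B1
    haveI := isScalarTower1 B0 B1
    letI := algWE E.lev
    letI := algWKbar p K
    letI := algEKbar E.E
    haveI := tower_W_E_Kbar E.lev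
    DescStatement (nodalChart M : TwoChart (Wb p K) ↥B0 ↥B1 ↥(B0 ⊔ B1)) ↥E.E (Kbar p) (GE hK E) := by
  letI := algebra0 B0 B1
  letI := algebra1 B0 B1
  haveI := isScalarTower0 B0 B1
  haveI := isScalarTower1 B0 B1
  letI := algWE E.lev
  letI := algWKbar p K
  letI := algEKbar E.E
  haveI := tower_W_E_Kbar E.lev
  letI := algKE' E.lev
  letI := algKKbar' p K
  haveI : IsScalarTower (Wb p K) ↥K ↥E.E := IsScalarTower.of_algebraMap_eq' rfl
  haveI : IsScalarTower (Wb p K) ↥K (Kbar p) := IsScalarTower.of_algebraMap_eq' rfl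
  haveI := finite_GE hK E
  exact Dvr.descStatement_nodalModel e he hinj ↥E.E (Kbar p) M ht hH0 (GE hK E)

include e he hinj M ht in
/-- **`hinjE`**: `Pic X_E → Pic X_{ℚ̄_p}` is injective. -/
theorem hinjE
    (hH0 :
      letI := algebra0 B0 B1
      letI := algebra1 B0 B1
      haveI := isScalarTower0 B0 B1
      haveI := isScalarTower1 B0 B1
      letI := algWKbar p K
      H0Const ((nodalChart M : TwoChart (Wb p K) ↥B0 ↥B1 ↥(B0 ⊔ B1)).baseChange (Kbar p)))
    (E : NLevel p K) :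
    letI := algebra0 B0 B1
    letI := algebra1 B0 B1
    haveI := isScalarTower0 B0 B1
    haveI := isScalarTower1 B0 B1
    Function.Injective (bcE (nodalChart M : TwoChart (Wb p K) ↥B0 ↥B1 ↥(B0 ⊔ B1)) E) := by
  letI := algebra0 B0 B1
  letI := algebra1 B0 B1
  haveI := isScalarTower0 B0 B1
  haveI := isScalarTower1 B0 B1
  letI := algWE E.lev
  letI := algWKbar p K
  letI := algEKbar E.E
  haveI := tower_W_E_Kbar E.lev
  letI := algKKbar' p K
  haveI : IsScalarTower (Wb p K) ↥K (Kbar p) := IsScalarTower.of_algebraMap_eq' rfl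
  have hD := Dvr.isDedekindDomain_nodalChart0 e he hinj (Kbar p) M ht
  haveI : Nontrivial (Kbar p ⊗[Wb p K] ↥B0) := hD.toIsDomain.toNontrivial
  exact Fermat.Agent.T1B.Bridge43.picMap_injective_of_field (nodalChart M : TwoChart (Wb p K) ↥B0 ↥B1 ↥(B0 ⊔ B1)) ↥E.E (Kbar p) hH0

/-! ### `phi` for the nodal hub -/

section Phi

variable [Nonempty (NLevel p K)] (hK : InertFixed (padicPlace p) K)

include e he hinj ht in
/-- **(Φ), `t = 0`, for the nodal hub**: an inertia-invariant class of points extends to a line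
bundle over some `O_E`.  Inputs: the model facts of the levels (`LevelData`) and `H⁰(X_{R'}, O) = R'`
at `R' = E`, `ℚ̄_p` (`NodalCoh30.concrete_h0Const`). -/
theorem mem_JextTop_of_invariant_nodal :
    letI := algebra0 B0 B1
    letI := algebra1 B0 B1
    haveI := isScalarTower0 B0 B1
    haveI := isScalarTower1 B0 B1
    ∀ (_ : ∀ E : NLevel p K, LevelData (nodalChart M : TwoChart (Wb p K) ↥B0 ↥B1 ↥(B0 ⊔ B1)) hK E)
      (_ : ∀ E : NLevel p K, letI := algWE E.lev; H0Const ((nodalChart M : TwoChart (Wb p K) ↥B0 ↥B1 ↥(B0 ⊔ B1)).baseChange ↥E.E))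
      (_ : letI := algWKbar p K; H0Const ((nodalChart M : TwoChart (Wb p K) ↥B0 ↥B1 ↥(B0 ⊔ B1)).baseChange (Kbar p)))
      {y : Atop p K (nodalChart M : TwoChart (Wb p K) ↥B0 ↥B1 ↥(B0 ⊔ B1))} (_ : y ∈ PtTop (nodalChart M : TwoChart (Wb p K) ↥B0 ↥B1 ↥(B0 ⊔ B1)))
      (_ : letI := actTop (nodalChart M : TwoChart (Wb p K) ↥B0 ↥B1 ↥(B0 ⊔ B1)) hK; ∀ τ : ↥(Ip p), τ • y = y),
      y ∈ JextTop (nodalChart M : TwoChart (Wb p K) ↥B0 ↥B1 ↥(B0 ⊔ B1)) := by
  letI := algebra0 B0 B1
  letI := algebra1 B0 B1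
  haveI := isScalarTower0 B0 B1
  haveI := isScalarTower1 B0 B1
  haveI := finiteType_B0 M ht
  haveI := finiteType_B1 M ht
  intro D hH0E hH0top y hy hfix
  exact mem_JextTop_of_invariant (nodalChart M : TwoChart (Wb p K) ↥B0 ↥B1 ↥(B0 ⊔ B1)) hK D (GE hK) (tauE_mem_GE hK)
    (fun E _ hσ => exists_of_mem_GE hK E hσ)
    (fun E => hdesc e he hinj M ht hK E (hH0E E))
    (fun E => hinjE e he hinj M ht hH0top E) hy hfix

include e he hinj ht in
/-- **`LocalGeom.phi` for the nodal hub, with `C := JextTop`** (the binder `phi` of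
`Local66.Glue.localGeom_of_fields`). -/
theorem phi_glue_nodal :
    letI := algebra0 B0 B1
    letI := algebra1 B0 B1
    haveI := isScalarTower0 B0 B1
    haveI := isScalarTower1 B0 B1
    ∀ (_ : ∀ E : NLevel p K, LevelData (nodalChart M : TwoChart (Wb p K) ↥B0 ↥B1 ↥(B0 ⊔ B1)) hK E)
      (_ : ∀ E : NLevel p K, letI := algWE E.lev; H0Const ((nodalChart M : TwoChart (Wb p K) ↥B0 ↥B1 ↥(B0 ⊔ B1)).baseChange ↥E.E))
      (_ : letI := algWKbar p K; H0Const ((nodalChart M : TwoChart (Wb p K) ↥B0 ↥B1 ↥(B0 ⊔ B1)).baseChange (Kbar p)))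
      (P00 : ∀ E : NLevel p K, Subgroup (PicO (nodalChart M : TwoChart (Wb p K) ↥B0 ↥B1 ↥(B0 ⊔ B1)) E))
      (hPP : Compatible (nodalChart M : TwoChart (Wb p K) ↥B0 ↥B1 ↥(B0 ⊔ B1)) P00),
      letI := actTop (nodalChart M : TwoChart (Wb p K) ↥B0 ↥B1 ↥(B0 ⊔ B1)) hK
      ∀ y ∈ PtTop (nodalChart M : TwoChart (Wb p K) ↥B0 ↥B1 ↥(B0 ⊔ B1)), ∀ t ∈ J1top (nodalChart M : TwoChart (Wb p K) ↥B0 ↥B1 ↥(B0 ⊔ B1)) P00 hPP,
        (∀ τ : ↥(Ip p), τ • (y - t) = y - t) →
        ∃ z ∈ JextTop (nodalChart M : TwoChart (Wb p K) ↥B0 ↥B1 ↥(B0 ⊔ B1)), y - t - z ∈ J0top (nodalChart M : TwoChart (Wb p K) ↥B0 ↥B1 ↥(B0 ⊔ B1)) P00 hPP := by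
  letI := algebra0 B0 B1
  letI := algebra1 B0 B1
  haveI := isScalarTower0 B0 B1
  haveI := isScalarTower1 B0 B1
  haveI := finiteType_B0 M ht
  haveI := finiteType_B1 M ht
  intro D hH0E hH0top P00 hPP
  refine phi_glue (nodalChart M : TwoChart (Wb p K) ↥B0 ↥B1 ↥(B0 ⊔ B1)) hK D (GE hK) (tauE_mem_GE hK)
    (fun E _ hσ => exists_of_mem_GE hK E hσ)
    (fun E => hdesc e he hinj M ht hK E (hH0E E))
    (fun E => hinjE e he hinj M ht hH0top E) P00 hPP ?_
  rw [ptTop_eq_top e he hinj M ht]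
  exact le_top

end Phi

end Fermat.Agent.T1B.DescSep1.LocalPhiInst
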